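/-
S53 (existence of the universal deformation ring): shared definitions.
This file contains DEFINITIONS ONLY and is the interface between the
commutative-algebra part (`Abstract*.lean`) and the Galois part.
-/
import Mathlib
import Fermat.Prelude.Def_GaloisRep_DeformationRingData
import Fermat.Prelude.Def_GaloisRep_DeformationCondition

set_option autoImplicit false

namespace Fermat.Agent.S53

open IsLocalRing GaloisRep

/-- The absolute Galois group of `ℚ`, as an abstract group. -/
abbrev Gal : Type := AlgebraicClosure ℚ ≃ₐ[ℚ] AlgebraicClosure ℚ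

/-- `2 × 2` matrices. -/
abbrev Mat2 (A : Type) : Type := Matrix (Fin 2) (Fin 2) A

section Abstract

variable (𝒪 : Type) [CommRing 𝒪] [IsLocalRing 𝒪]

/-- The `𝒪`-algebra structure on the dual numbers over the residue field that is used
(through a `letI`) in `GaloisRep.TangentFinite`.  Always bring it into scope with
`letI := dualNumberAlgebra 𝒪`. -/
@[reducible] noncomputable def dualNumberAlgebra :
    Algebra 𝒪 (DualNumber (ResidueField 𝒪)) :=
  ((algebraMap (ResidueField 𝒪) (DualNumber (ResidueField 𝒪))).comp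
    (algebraMap 𝒪 (ResidueField 𝒪))).toAlgebra

/-- An abstract "lifting problem": a predicate on `X`-indexed families of elements of local
`𝒪`-algebras (only meaningful on Artinian test algebras), together with the residual family. -/
structure LiftProblem (X : Type) where
  /-- the predicate "`r` is an admissible lift" -/
  F : ∀ ⦃A : Type⦄ [CommRing A] [IsLocalRing A] [Algebra 𝒪 A], (X → A) → Prop
  /-- the residual family -/
  rbar : X → ResidueField 𝒪

variable {𝒪}
variable {X : Type}

/-- The axioms on a lifting problem that make it pro-representable by a complete noetherian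
local `𝒪`-algebra. -/
structure LiftProblem.Axioms (P : LiftProblem 𝒪 X) : Prop where
  /-- functoriality along `𝒪`-algebra maps of Artinian test algebras -/
  push : ∀ ⦃A B : Type⦄ [CommRing A] [IsLocalRing A] [Algebra 𝒪 A]
    [CommRing B] [IsLocalRing B] [Algebra 𝒪 B],
    IsArtinianTestAlgebra 𝒪 A → IsArtinianTestAlgebra 𝒪 B →
    ∀ (φ : A →ₐ[𝒪] B) ⦃r : X → A⦄, P.F r → P.F (fun x => φ (r x))
  /-- descent along injective maps -/
  descent : ∀ ⦃A B : Type⦄ [CommRing A] [IsLocalRing A] [Algebra 𝒪 A]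
    [CommRing B] [IsLocalRing B] [Algebra 𝒪 B],
    IsArtinianTestAlgebra 𝒪 A → IsArtinianTestAlgebra 𝒪 B →
    ∀ (φ : A →ₐ[𝒪] B), Function.Injective φ →
      ∀ ⦃r : X → A⦄, P.F (fun x => φ (r x)) → P.F r
  /-- gluing along fibre products (same shape as `IsDeformationCondition.of_fibreProduct`) -/
  fibre : ∀ ⦃A B C Q : Type⦄ [CommRing A] [IsLocalRing A] [Algebra 𝒪 A]
    [CommRing B] [IsLocalRing B] [Algebra 𝒪 B] [CommRing C] [IsLocalRing C] [Algebra 𝒪 C]
    [CommRing Q] [IsLocalRing Q] [Algebra 𝒪 Q],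
    IsArtinianTestAlgebra 𝒪 A → IsArtinianTestAlgebra 𝒪 B → IsArtinianTestAlgebra 𝒪 C →
    IsArtinianTestAlgebra 𝒪 Q →
    ∀ (f : A →ₐ[𝒪] C) (g : B →ₐ[𝒪] C) (pA : Q →ₐ[𝒪] A) (pB : Q →ₐ[𝒪] B),
      f.comp pA = g.comp pB →
      Function.Injective (fun x => (pA x, pB x)) →
      (∀ a b, f a = g b → ∃ x, pA x = a ∧ pB x = b) →
      ∀ ⦃r : X → Q⦄, P.F (fun x => pA (r x)) → P.F (fun x => pB (r x)) → P.F r
  /-- every admissible lift reduces to `rbar` -/
  residue : ∀ ⦃A : Type⦄ [CommRing A] [IsLocalRing A] [Algebra 𝒪 A],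
    IsArtinianTestAlgebra 𝒪 A → ∀ ⦃r : X → A⦄, P.F r →
      ∀ (x : X) (a : 𝒪), IsLocalRing.residue 𝒪 a = P.rbar x →
        r x - algebraMap 𝒪 A a ∈ maximalIdeal A
  /-- the residual family is admissible -/
  base : P.F P.rbar
  /-- finiteness of the tangent space -/
  tangent : letI := dualNumberAlgebra 𝒪
    Finite {r : X → DualNumber (ResidueField 𝒪) // P.F r}

/-- A universal solution of a lifting problem. -/
structure LiftProblem.UnivLift (P : LiftProblem 𝒪 X) : Type 1 where
  R : Type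
  [instCommRing : CommRing R]
  [instIsLocalRing : IsLocalRing R]
  [instIsNoetherianRing : IsNoetherianRing R]
  [instIsAdicComplete : IsAdicComplete (maximalIdeal R) R]
  [instAlgebra : Algebra 𝒪 R]
  [instIsLocalHom : IsLocalHom (algebraMap 𝒪 R)]
  residue_surjective : Function.Surjective (IsLocalRing.residue R ∘ algebraMap 𝒪 R)
  /-- the universal family -/
  u : X → R
  /-- every specialisation of `u` to an Artinian test algebra is admissible -/
  isLift : ∀ ⦃B : Type⦄ [CommRing B] [IsLocalRing B] [Algebra 𝒪 B],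
    IsArtinianTestAlgebra 𝒪 B → ∀ q : R →ₐ[𝒪] B, P.F (fun x => q (u x))
  /-- every admissible lift over an Artinian test algebra is a unique specialisation of `u` -/
  existsUnique : ∀ ⦃B : Type⦄ [CommRing B] [IsLocalRing B] [Algebra 𝒪 B],
    IsArtinianTestAlgebra 𝒪 B → ∀ r : X → B, P.F r →
      ∃! q : R →ₐ[𝒪] B, ∀ x, q (u x) = r x

attribute [instance] LiftProblem.UnivLift.instCommRing LiftProblem.UnivLift.instIsLocalRing
  LiftProblem.UnivLift.instIsNoetherianRing LiftProblem.UnivLift.instIsAdicComplete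
  LiftProblem.UnivLift.instAlgebra LiftProblem.UnivLift.instIsLocalHom

end Abstract

section Galois

/-- Adic continuity of a matrix-valued map on the Galois group. -/
def IsCtsMat (A : Type) [CommRing A] [IsLocalRing A] (M : Gal → Mat2 A) : Prop :=
  ∀ n : ℕ, ∃ L : IntermediateField ℚ (AlgebraicClosure ℚ), FiniteDimensional ℚ L ∧
    ∀ σ : Gal, (∀ x ∈ L, σ x = x) → ∀ i j, (M σ - 1) i j ∈ maximalIdeal A ^ n

/-- The Galois representation on `A²` attached to a continuous matrix representation. -/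
noncomputable def ofMat {A : Type} [CommRing A] [IsLocalRing A] (M : Gal →* Mat2 A)
    (hM : IsCtsMat A M) : GaloisRepAdic A where
  V := Fin 2 → A
  finrank_eq := by simp
  ρ := ((Matrix.toLinAlgEquiv' : Mat2 A ≃ₐ[A] Module.End A (Fin 2 → A)) :
      Mat2 A →* Module.End A (Fin 2 → A)).comp M
  isAdicContinuous := by
    intro n
    obtain ⟨L, hL, h⟩ := hM n
    refine ⟨L, hL, fun σ hσ v => ?_⟩
    have hv : ∀ w : Fin 2 → A, (∀ i, w i ∈ maximalIdeal A ^ n) →
        w ∈ (maximalIdeal A ^ n) • (⊤ : Submodule A (Fin 2 → A)) := by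
      intro w hw
      have : w = ∑ i, w i • (Pi.single i (1 : A) : Fin 2 → A) := by
        ext j; simp [Finset.sum_apply, Pi.single_apply]
      rw [this]
      exact Submodule.sum_mem _ fun i _ => Submodule.smul_mem_smul (hw i) Submodule.mem_top
    apply hv
    intro i
    have h1 : ((Matrix.toLinAlgEquiv' : Mat2 A ≃ₐ[A] Module.End A (Fin 2 → A)) (M σ) v - v) i
        = ∑ j, (M σ - 1) i j * v j := by
      fin_cases i <;>
        simp [Matrix.toLinAlgEquiv'_apply, Fin.sum_univ_two,
          Matrix.sub_apply, Matrix.one_apply] <;> ring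
    have h2 : ((((Matrix.toLinAlgEquiv' : Mat2 A ≃ₐ[A] Module.End A (Fin 2 → A)) :
      Mat2 A →* Module.End A (Fin 2 → A)).comp M) σ v - v) i = ∑ j, (M σ - 1) i j * v j := h1
    rw [h2]
    exact Ideal.sum_mem _ fun j _ => Ideal.mul_mem_right _ _ (h σ hσ i j)

/-- Entrywise image of a matrix representation under a ring homomorphism. -/
noncomputable def mapMat {A B : Type} [CommRing A] [CommRing B] (φ : A →+* B)
    (M : Gal →* Mat2 A) : Gal →* Mat2 B :=
  ((φ.mapMatrix : Mat2 A →+* Mat2 B) : Mat2 A →* Mat2 B).comp M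

theorem mapMat_apply {A B : Type} [CommRing A] [CommRing B] (φ : A →+* B)
    (M : Gal →* Mat2 A) (g : Gal) (i j : Fin 2) : mapMat φ M g i j = φ (M g i j) := rfl

variable {𝒪 : Type} [CommRing 𝒪] [IsLocalRing 𝒪]

/-- A frame for the residual representation: a basis in which `ρbar g0` is a companion matrix,
and an entry `(i0, j0)` at which `ρbar g1` does not commute with `ρbar g0`, together with a
lift `c` of the `(i0, j0)` entry of `ρbar g1`. -/
structure Frame (ρbar : ResidualGaloisRep (ResidueField 𝒪)) where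
  b : Module.Basis (Fin 2) (ResidueField 𝒪) ρbar.V
  g0 : Gal
  g1 : Gal
  i0 : Fin 2
  j0 : Fin 2
  c : 𝒪
  h00 : LinearMap.toMatrix b b (ρbar.ρ g0) 0 0 = 0
  h10 : LinearMap.toMatrix b b (ρbar.ρ g0) 1 0 = 1
  hcomm : (LinearMap.toMatrix b b (ρbar.ρ g0) * LinearMap.toMatrix b b (ρbar.ρ g1) -
    LinearMap.toMatrix b b (ρbar.ρ g1) * LinearMap.toMatrix b b (ρbar.ρ g0)) i0 j0 ≠ 0
  hc : IsLocalRing.residue 𝒪 c = LinearMap.toMatrix b b (ρbar.ρ g1) i0 j0

variable {ρbar : ResidualGaloisRep (ResidueField 𝒪)}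

/-- The matrix form of the residual representation in the basis of the frame. -/
noncomputable def Frame.Mbar (fr : Frame ρbar) : Gal →* Mat2 (ResidueField 𝒪) :=
  ((LinearMap.toMatrixAlgEquiv fr.b :
      Module.End (ResidueField 𝒪) ρbar.V ≃ₐ[ResidueField 𝒪] Mat2 (ResidueField 𝒪)) :
    Module.End (ResidueField 𝒪) ρbar.V →* Mat2 (ResidueField 𝒪)).comp ρbar.ρ

/-- The rigidity (normal form) conditions. -/
def Frame.IsRigid (fr : Frame ρbar) {A : Type} [CommRing A] [Algebra 𝒪 A]
    (M : Gal → Mat2 A) : Prop :=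
  M fr.g0 0 0 = 0 ∧ M fr.g0 1 0 = 1 ∧ M fr.g1 fr.i0 fr.j0 = algebraMap 𝒪 A fr.c

/-- `M` reduces to the residual matrix representation `fr.Mbar` modulo the maximal ideal. -/
def Frame.IsLiftOf (fr : Frame ρbar) {A : Type} [CommRing A] [IsLocalRing A] [Algebra 𝒪 A]
    (M : Gal → Mat2 A) : Prop :=
  ∀ (g : Gal) (i j : Fin 2) (a : 𝒪), IsLocalRing.residue 𝒪 a = fr.Mbar g i j →
    M g i j - algebraMap 𝒪 A a ∈ maximalIdeal A

/-- The lifting problem of rigid lifts of `ρbar` satisfying the deformation condition `𝒟`. -/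
noncomputable def Frame.liftProblem (fr : Frame ρbar)
    (𝒟 : ∀ ⦃A : Type⦄ [CommRing A] [IsLocalRing A] [Algebra 𝒪 A], GaloisRepAdic A → Prop) :
    LiftProblem 𝒪 (Gal × Fin 2 × Fin 2) where
  F := fun A _ _ _ r => ∃ (M : Gal →* Mat2 A) (hM : IsCtsMat A M),
    (∀ g i j, M g i j = r (g, i, j)) ∧ fr.IsRigid M ∧ fr.IsLiftOf M ∧ 𝒟 (ofMat M hM)
  rbar := fun x => fr.Mbar x.1 x.2.1 x.2.2

end Galois

end Fermat.Agent.S53
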