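/-
S53 work package T-a (T1, T9).  STATEMENTS ARE FROZEN (squad interface): do not change them.
Replace each `sorry` by a proof.  Helper lemmas: add them in THIS file, inside
`namespace Fermat.Agent.S53`, with names prefixed `artA_` (fresh names).
-/
import Fermat.Agent.S53.Defs

set_option autoImplicit false
set_option linter.style.haveILetI false

namespace Fermat.Agent.S53

open IsLocalRing GaloisRep

variable {𝒪 : Type} [CommRing 𝒪] [IsLocalRing 𝒪]

/-- T1. The residue field is an Artinian test algebra. -/
theorem isArtinianTestAlgebra_residueField : IsArtinianTestAlgebra 𝒪 (ResidueField 𝒪) := by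
  refine ⟨?_, ?_, inferInstance⟩
  · rw [IsLocalRing.ResidueField.algebraMap_eq]
    infer_instance
  · rw [IsLocalRing.ResidueField.algebraMap_eq]
    exact (IsLocalRing.residue_surjective (R := ResidueField 𝒪)).comp
      (IsLocalRing.residue_surjective (R := 𝒪))

theorem artA_algebraMap_dual (c : 𝒪) :
    letI := dualNumberAlgebra 𝒪
    algebraMap 𝒪 (DualNumber (ResidueField 𝒪)) c = TrivSqZeroExt.inl (residue 𝒪 c) := rfl

/-- T9. The dual numbers over the residue field, with the `𝒪`-algebra structure
`dualNumberAlgebra`, form an Artinian test algebra. -/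
theorem isArtinianTestAlgebra_dualNumber :
    letI := dualNumberAlgebra 𝒪
    IsArtinianTestAlgebra 𝒪 (DualNumber (ResidueField 𝒪)) := by
  letI := dualNumberAlgebra 𝒪
  refine ⟨⟨fun c hc => ?_⟩, ?_, ?_⟩
  · rw [artA_algebraMap_dual, TrivSqZeroExt.isUnit_iff_isUnit_fst, TrivSqZeroExt.fst_inl] at hc
    exact isUnit_of_map_unit (residue 𝒪) c hc
  · intro y
    obtain ⟨x, rfl⟩ := IsLocalRing.residue_surjective y
    obtain ⟨c, hc⟩ := IsLocalRing.residue_surjective (R := 𝒪) x.fst
    refine ⟨c, ?_⟩
    rw [Function.comp_apply, artA_algebraMap_dual, ← sub_eq_zero, ← map_sub,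
      IsLocalRing.residue_eq_zero_iff, hc]
    intro hu
    rw [TrivSqZeroExt.isUnit_iff_isUnit_fst] at hu
    simp at hu
  · haveI : Module.Finite (ResidueField 𝒪) (DualNumber (ResidueField 𝒪)) :=
      inferInstanceAs (Module.Finite (ResidueField 𝒪) (ResidueField 𝒪 × ResidueField 𝒪))
    exact IsArtinianRing.of_finite (ResidueField 𝒪) (DualNumber (ResidueField 𝒪))

end Fermat.Agent.S53
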