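/-
S53 work package T-b (T2-T5).  STATEMENTS ARE FROZEN (squad interface): do not change them.
All statements proved (helper1015).  Helper lemmas live in THIS file, inside
`namespace Fermat.Agent.S53`, with names prefixed `artB_` (fresh names).
-/
import Fermat.Agent.S53.Defs

set_option autoImplicit false

namespace Fermat.Agent.S53

open IsLocalRing GaloisRep

variable {𝒪 : Type} [CommRing 𝒪] [IsLocalRing 𝒪]

/-- A positive power of the maximal ideal of a local ring is a proper ideal. -/
theorem artB_maxPow_ne_top (A : Type) [CommRing A] [IsLocalRing A] (n : ℕ) :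
    maximalIdeal A ^ (n + 1) ≠ ⊤ := by
  intro h
  have h1 : maximalIdeal A ^ (n + 1) ≤ maximalIdeal A := Ideal.pow_le_self (Nat.succ_ne_zero n)
  rw [h] at h1
  exact (maximalIdeal.isMaximal A).ne_top (top_le_iff.mp h1)

/-- The quotient by a positive power of the maximal ideal is nontrivial. -/
theorem artB_nontrivial_quot (A : Type) [CommRing A] [IsLocalRing A] (n : ℕ) :
    Nontrivial (A ⧸ maximalIdeal A ^ (n + 1)) :=
  Ideal.Quotient.nontrivial_iff.mpr (artB_maxPow_ne_top A n)

/-- T2. Quotients by positive powers of the maximal ideal are local (instance used throughout). -/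
instance instIsLocalRingQuotMaxPow (A : Type) [CommRing A] [IsLocalRing A] (n : ℕ) :
    IsLocalRing (A ⧸ maximalIdeal A ^ (n + 1)) := by
  have := artB_nontrivial_quot A n
  exact IsLocalRing.of_surjective' (Ideal.Quotient.mk (maximalIdeal A ^ (n + 1)))
    Ideal.Quotient.mk_surjective

/-- T3. The maximal ideal of `A ⧸ m ^ (n+1)` is the image of `m`. -/
theorem maximalIdeal_quot_pow (A : Type) [CommRing A] [IsLocalRing A] (n : ℕ) :
    maximalIdeal (A ⧸ maximalIdeal A ^ (n + 1)) =
      (maximalIdeal A).map (Ideal.Quotient.mk (maximalIdeal A ^ (n + 1))) :=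
  (IsLocalRing.map_maximalIdeal_of_surjective (Ideal.Quotient.mk (maximalIdeal A ^ (n + 1)))
    Ideal.Quotient.mk_surjective).symm

/-- T4. The maximal ideal of `A ⧸ m ^ (n+1)` is nilpotent of exponent `n+1`. -/
theorem maximalIdeal_quot_pow_pow (A : Type) [CommRing A] [IsLocalRing A] (n : ℕ) :
    maximalIdeal (A ⧸ maximalIdeal A ^ (n + 1)) ^ (n + 1) = ⊥ := by
  rw [maximalIdeal_quot_pow, ← Ideal.map_pow, Ideal.map_quotient_self]

/-- T5. For a noetherian local test algebra `A` (local structure map, residue field generated by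
`𝒪`, finite residue field), `A ⧸ m ^ (n+1)` is an Artinian test algebra. -/
theorem isArtinianTestAlgebra_quot_pow [Finite (ResidueField 𝒪)] (A : Type) [CommRing A]
    [IsLocalRing A] [IsNoetherianRing A] [Algebra 𝒪 A] [IsLocalHom (algebraMap 𝒪 A)]
    (hres : Function.Surjective (IsLocalRing.residue A ∘ algebraMap 𝒪 A)) (n : ℕ) :
    IsArtinianTestAlgebra 𝒪 (A ⧸ maximalIdeal A ^ (n + 1)) := by
  have hloc : IsLocalHom (Ideal.Quotient.mk (maximalIdeal A ^ (n + 1))) :=
    IsLocalHom.of_surjective _ Ideal.Quotient.mk_surjective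
  have halg : algebraMap 𝒪 (A ⧸ maximalIdeal A ^ (n + 1)) =
      (Ideal.Quotient.mk (maximalIdeal A ^ (n + 1))).comp (algebraMap 𝒪 A) := rfl
  refine ⟨?_, ?_, ?_⟩
  · rw [halg]
    exact RingHom.isLocalHom_comp _ _
  · intro y
    obtain ⟨z, rfl⟩ := IsLocalRing.residue_surjective y
    obtain ⟨a, rfl⟩ := Ideal.Quotient.mk_surjective z
    obtain ⟨c, hc⟩ := hres (IsLocalRing.residue A a)
    refine ⟨c, ?_⟩
    simp only [Function.comp_apply] at hc ⊢
    rw [halg, RingHom.comp_apply]
    have h1 : IsLocalRing.residue A (algebraMap 𝒪 A c - a) = 0 := by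
      rw [map_sub, hc, sub_self]
    have h2 : algebraMap 𝒪 A c - a ∈ maximalIdeal A := (IsLocalRing.residue_eq_zero_iff _).mp h1
    have h3 : Ideal.Quotient.mk (maximalIdeal A ^ (n + 1)) (algebraMap 𝒪 A c - a) ∈
        maximalIdeal (A ⧸ maximalIdeal A ^ (n + 1)) := by
      rw [maximalIdeal_quot_pow]
      exact Ideal.mem_map_of_mem _ h2
    have h4 := (IsLocalRing.residue_eq_zero_iff _).mpr h3
    rw [map_sub, map_sub, sub_eq_zero] at h4
    exact h4
  · rw [isArtinianRing_iff_isNilpotent_maximalIdeal]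
    exact ⟨n + 1, maximalIdeal_quot_pow_pow A n⟩

end Fermat.Agent.S53
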