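/-
S53 work package T-c (T6-T8).  STATEMENTS ARE FROZEN (squad interface): do not change them.
Replace each `sorry` by a proof.  Helper lemmas: add them in THIS file, inside
`namespace Fermat.Agent.S53`, with names prefixed `artC_` (fresh names).
-/
import Fermat.Agent.S53.Defs

set_option autoImplicit false
set_option linter.unusedSectionVars false
set_option linter.style.haveILetI false

namespace Fermat.Agent.S53

open IsLocalRing GaloisRep

variable {𝒪 : Type} [CommRing 𝒪] [IsLocalRing 𝒪]

/-- If the residue field of `B` is generated by `𝒪`, the structure map sends the maximal ideal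
of `𝒪` into the maximal ideal of `B`. -/
theorem artC_algebraMap_mem {B : Type} [CommRing B] [IsLocalRing B] [Algebra 𝒪 B]
    (hB : Function.Surjective (IsLocalRing.residue B ∘ algebraMap 𝒪 B)) {c : 𝒪}
    (hc : c ∈ maximalIdeal 𝒪) : algebraMap 𝒪 B c ∈ maximalIdeal B := by
  by_contra hcu
  have hu : IsUnit (algebraMap 𝒪 B c) := by
    by_contra h
    exact hcu ((mem_maximalIdeal _).mpr h)
  -- the inverse of the image of `c` in the residue field comes from some `d : 𝒪`
  obtain ⟨d, hd⟩ := hB ((IsLocalRing.residue B (algebraMap 𝒪 B c))⁻¹)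
  have hne : IsLocalRing.residue B (algebraMap 𝒪 B c) ≠ 0 := by
    rw [Ne, residue_eq_zero_iff]
    exact hcu
  have h1 : IsLocalRing.residue B (algebraMap 𝒪 B (1 - c * d)) = 0 := by
    have hd' : IsLocalRing.residue B (algebraMap 𝒪 B d) =
        (IsLocalRing.residue B (algebraMap 𝒪 B c))⁻¹ := hd
    rw [map_sub, map_sub, map_one, map_one, map_mul, map_mul, hd', mul_inv_cancel₀ hne, sub_self]
  have h2 : IsUnit (1 - c * d) :=
    IsLocalRing.isUnit_one_sub_self_of_mem_nonunits _
      ((mem_maximalIdeal _).mp (Ideal.mul_mem_right _ _ hc))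
  have h3 : IsUnit (IsLocalRing.residue B (algebraMap 𝒪 B (1 - c * d))) :=
    (h2.map (algebraMap 𝒪 B)).map (IsLocalRing.residue B)
  rw [h1] at h3
  exact not_isUnit_zero h3

/-- T6. An `𝒪`-algebra map into a local `𝒪`-algebra whose residue field is generated by `𝒪`
is automatically a local homomorphism. -/
theorem isLocalHom_of_residue_surjective {A B : Type} [CommRing A] [IsLocalRing A] [Algebra 𝒪 A]
    [CommRing B] [IsLocalRing B] [Algebra 𝒪 B]
    (hB : Function.Surjective (IsLocalRing.residue B ∘ algebraMap 𝒪 B)) (φ : A →ₐ[𝒪] B) :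
    IsLocalHom (φ : A →+* B) := by
  refine ⟨fun a ha => ?_⟩
  have ha' : IsUnit (φ a) := ha
  by_contra hau
  have ham : a ∈ maximalIdeal A := (mem_maximalIdeal _).mpr hau
  obtain ⟨c, hc⟩ := hB (IsLocalRing.residue B (φ a))
  have hc' : IsLocalRing.residue B (algebraMap 𝒪 B c) = IsLocalRing.residue B (φ a) := hc
  have hcu : IsUnit c := by
    by_contra hcn
    have h1 := artC_algebraMap_mem hB ((mem_maximalIdeal _).mpr hcn)
    rw [← residue_eq_zero_iff, hc', residue_eq_zero_iff, mem_maximalIdeal, mem_nonunits_iff] at h1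
    exact h1 ha'
  -- `a - c` is a unit of `A` whose image lies in the maximal ideal of `B`
  have h2 : IsUnit (algebraMap 𝒪 A c - a) := by
    by_contra hn
    have h5 : algebraMap 𝒪 A c - a ∈ maximalIdeal A := (mem_maximalIdeal _).mpr hn
    have h6 : algebraMap 𝒪 A c ∈ maximalIdeal A := by
      have := Ideal.add_mem _ h5 ham
      rwa [sub_add_cancel] at this
    exact ((mem_maximalIdeal _).mp h6) (hcu.map _)
  have h3 : IsUnit (φ (algebraMap 𝒪 A c - a)) := h2.map φ
  have h4 : IsLocalRing.residue B (φ (algebraMap 𝒪 A c - a)) = 0 := by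
    rw [map_sub, AlgHom.commutes, map_sub, hc', sub_self]
  rw [residue_eq_zero_iff, mem_maximalIdeal, mem_nonunits_iff] at h4
  exact h4 h3

/-- T7. In an Artinian test algebra the maximal ideal is nilpotent. -/
theorem IsArtinianTestAlgebra.exists_pow_maximalIdeal_eq_bot {A : Type} [CommRing A]
    [IsLocalRing A] [Algebra 𝒪 A] (hA : IsArtinianTestAlgebra 𝒪 A) :
    ∃ n : ℕ, maximalIdeal A ^ n = ⊥ :=
  haveI := hA.isArtinian
  (isArtinianRing_iff_isNilpotent_maximalIdeal A).mp inferInstance

/-- T8. An Artinian test algebra over `𝒪` with finite residue field is a finite ring. -/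
theorem IsArtinianTestAlgebra.finite [Finite (ResidueField 𝒪)] {A : Type} [CommRing A]
    [IsLocalRing A] [Algebra 𝒪 A] (hA : IsArtinianTestAlgebra 𝒪 A) : Finite A := by
  haveI := hA.isArtinian
  haveI := hA.isLocalHom
  have hfin : Finite (A ⧸ maximalIdeal A) := by
    have hs : Function.Surjective (ResidueField.map (algebraMap 𝒪 A)) := by
      intro x
      obtain ⟨c, hc⟩ := hA.residue_surjective x
      exact ⟨residue 𝒪 c, by rw [ResidueField.map_residue]; exact hc⟩
    exact Finite.of_surjective _ hs
  obtain ⟨n, hn⟩ := IsArtinianTestAlgebra.exists_pow_maximalIdeal_eq_bot hA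
  have hfg : (maximalIdeal A).FG := IsNoetherian.noetherian _
  have h2 : Finite (A ⧸ maximalIdeal A ^ n) := Ideal.finite_quotient_pow hfg n
  rw [hn] at h2
  exact Finite.of_equiv _ (RingEquiv.quotientBot A).toEquiv

end Fermat.Agent.S53
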