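/-
S53, work package A: the abstract pro-representability theorem (pure commutative algebra).
Assembly of the files in `Abstract/`.  No `sorry` here.
-/
import Fermat.Agent.S53.Defs
import Fermat.Agent.S53.ArtTest
import Fermat.Agent.S53.Abstract.PtDefs
import Fermat.Agent.S53.Abstract.Res
import Fermat.Agent.S53.Abstract.PtBasic
import Fermat.Agent.S53.Abstract.PtGen
import Fermat.Agent.S53.Abstract.PtInf
import Fermat.Agent.S53.Abstract.PtQuot
import Fermat.Agent.S53.Abstract.Sep
import Fermat.Agent.S53.Abstract.GenSurj
import Fermat.Agent.S53.Abstract.Gens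
import Fermat.Agent.S53.Abstract.Least
import Fermat.Agent.S53.Abstract.TowerExists
import Fermat.Agent.S53.Abstract.ProjHom
import Fermat.Agent.S53.Abstract.ProjProps
import Fermat.Agent.S53.Abstract.LimLemma
import Fermat.Agent.S53.Abstract.LimRing
import Fermat.Agent.S53.Abstract.LimComplete
import Fermat.Agent.S53.Abstract.Univ

set_option autoImplicit false

namespace Fermat.Agent.S53

open IsLocalRing GaloisRep

/-- A. A lifting problem satisfying the axioms has a universal solution over a complete
noetherian local `𝒪`-algebra. -/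
theorem LiftProblem.exists_univLift {𝒪 : Type} [CommRing 𝒪] [IsDomain 𝒪]
    [IsDiscreteValuationRing 𝒪] [IsAdicComplete (maximalIdeal 𝒪) 𝒪]
    [Finite (ResidueField 𝒪)] {X : Type} (P : LiftProblem 𝒪 X) (hP : P.Axioms) :
    Nonempty P.UnivLift := by
  obtain ⟨T⟩ := P.exists_tower hP
  obtain ⟨L⟩ := T.exists_lim hP
  exact L.univLift hP

end Fermat.Agent.S53
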