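/-
S53 work package D-b (D2).  STATEMENTS ARE FROZEN (squad interface): do not change them.
Replace each `sorry` by a proof.  Helper lemmas: add them in THIS file, inside
`namespace Fermat.Agent.S53`, with names prefixed `dictBC_` (fresh names).
-/
import Fermat.Agent.S53.Defs

set_option autoImplicit false

namespace Fermat.Agent.S53

open IsLocalRing GaloisRep
open scoped TensorProduct

variable {A : Type} [CommRing A] [IsLocalRing A]

/-- The canonical identification `B ⊗[A] (Fin 2 → A) ≃ₗ[B] (Fin 2 → B)` for the algebra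
structure given by a ring homomorphism. -/
noncomputable def dictBC_equiv {A : Type} [CommRing A] {B : Type} [CommRing B] (φ : A →+* B) :
    letI : Algebra A B := φ.toAlgebra
    (B ⊗[A] (Fin 2 → A)) ≃ₗ[B] (Fin 2 → B) :=
  letI : Algebra A B := φ.toAlgebra
  TensorProduct.piScalarRight A B B (Fin 2)

theorem dictBC_equiv_tmul {A : Type} [CommRing A] {B : Type} [CommRing B] (φ : A →+* B) (b : B)
    (v : Fin 2 → A) (i : Fin 2) :
    letI : Algebra A B := φ.toAlgebra
    dictBC_equiv φ (b ⊗ₜ[A] v) i = φ (v i) * b := by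
  letI : Algebra A B := φ.toAlgebra
  show (TensorProduct.piScalarRight A B B (Fin 2) (b ⊗ₜ[A] v)) i = φ (v i) * b
  rw [TensorProduct.piScalarRight_apply, TensorProduct.piScalarRightHom_tmul]
  rfl

theorem dictBC_key {A : Type} [CommRing A] {B : Type} [CommRing B] (φ : A →+* B) (N : Mat2 A) :
    letI : Algebra A B := φ.toAlgebra
    ∀ x : B ⊗[A] (Fin 2 → A),
      dictBC_equiv φ
        (((Matrix.toLinAlgEquiv' : Mat2 A ≃ₐ[A] Module.End A (Fin 2 → A)) N).baseChange B x) =
      (Matrix.toLinAlgEquiv' : Mat2 B ≃ₐ[B] Module.End B (Fin 2 → B)) (φ.mapMatrix N)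
        (dictBC_equiv φ x) := by
  letI : Algebra A B := φ.toAlgebra
  intro x
  induction x using TensorProduct.induction_on with
  | zero => simp only [map_zero]
  | tmul b v =>
    rw [LinearMap.baseChange_tmul]
    funext i
    rw [dictBC_equiv_tmul]
    simp only [Matrix.toLinAlgEquiv'_apply, Matrix.mulVec, dotProduct, map_sum, map_mul,
      Finset.sum_mul, RingHom.mapMatrix_apply, Matrix.map_apply]
    refine Finset.sum_congr rfl fun j _ => ?_
    rw [dictBC_equiv_tmul]
    ring
  | add x y hx hy => simp only [map_add, hx, hy]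

/-- D2. Base change of `ofMat M` is `ofMat` of the entrywise image. -/
theorem ofMat_baseChangeAlong_isEquiv {B : Type} [CommRing B] [IsLocalRing B] (φ : A →+* B)
    (hφ : IsLocalHom φ) (M : Gal →* Mat2 A) (hM : IsCtsMat A M)
    (hM' : IsCtsMat B (mapMat φ M)) :
    ((ofMat M hM).baseChangeAlong φ hφ).IsEquiv (ofMat (mapMat φ M) hM') :=
  ⟨⟨dictBC_equiv φ, fun σ x => dictBC_key φ (M σ) x⟩⟩

end Fermat.Agent.S53
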