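/-
S53 work package D-f (D8, D9).  STATEMENTS ARE FROZEN (squad interface): do not change them.
Replace each `sorry` by a proof.  Helper lemmas: add them in THIS file, inside
`namespace Fermat.Agent.S53`, with names prefixed `dictBar_` (fresh names).
-/
import Fermat.Agent.S53.Defs

set_option autoImplicit false

namespace Fermat.Agent.S53

open IsLocalRing GaloisRep

variable {A : Type} [CommRing A] [IsLocalRing A]

variable {𝒪 : Type} [CommRing 𝒪] [IsLocalRing 𝒪] {ρbar : ResidualGaloisRep (ResidueField 𝒪)}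

/-- `fr.Mbar g` is the matrix of `ρbar.ρ g` in the basis of the frame. -/
theorem dictBar_Mbar_apply (fr : Frame ρbar) (g : Gal) :
    fr.Mbar g = LinearMap.toMatrix fr.b fr.b (ρbar.ρ g) := rfl

/-- The coordinate isomorphism of the frame intertwines `ρbar` with `fr.Mbar`. -/
theorem dictBar_equivFun_apply (fr : Frame ρbar) (σ : Gal) (x : ρbar.V) :
    fr.b.equivFun (ρbar.ρ σ x) =
      (Matrix.toLinAlgEquiv' : Mat2 (ResidueField 𝒪) ≃ₐ[ResidueField 𝒪] _) (fr.Mbar σ)
        (fr.b.equivFun x) := by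
  rw [dictBar_Mbar_apply]
  funext i
  rw [Matrix.toLinAlgEquiv'_apply]
  have h := LinearMap.toMatrix_mulVec_repr fr.b fr.b (ρbar.ρ σ) x
  exact (congrFun h i).symm

/-- D8. The residual matrix representation is continuous. -/
theorem Frame.isCtsMat_Mbar (fr : Frame ρbar) : IsCtsMat (ResidueField 𝒪) fr.Mbar := by
  intro n
  obtain ⟨L, hL, h1⟩ := ρbar.factorsThroughFiniteLevel
  refine ⟨L, hL, fun σ hσ i j => ?_⟩
  have h : fr.Mbar σ = 1 := by
    rw [dictBar_Mbar_apply, h1 σ hσ]
    exact LinearMap.toMatrix_one fr.b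
  rw [h, sub_self]
  exact Ideal.zero_mem _

/-- D9. `ρbar` itself, viewed as a `GaloisRepAdic` over the residue field, is `ofMat fr.Mbar`. -/
theorem Frame.ofResidual_isEquiv_ofMat (fr : Frame ρbar) :
    (GaloisRepAdic.ofResidualGaloisRep ρbar).IsEquiv (ofMat fr.Mbar fr.isCtsMat_Mbar) :=
  ⟨{ toLinearEquiv := fr.b.equivFun
     map_apply := fun σ x => dictBar_equivFun_apply fr σ x }⟩

end Fermat.Agent.S53
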