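/-
S53 work package D-d (D6).  STATEMENTS ARE FROZEN (squad interface): do not change them.
Replace each `sorry` by a proof.  Helper lemmas: add them in THIS file, inside
`namespace Fermat.Agent.S53`, with names prefixed `dictBasis_` (fresh names).
-/
import Fermat.Agent.S53.Defs

set_option autoImplicit false

namespace Fermat.Agent.S53

open IsLocalRing GaloisRep

variable {A : Type} [CommRing A] [IsLocalRing A]

variable {𝒪 : Type} [CommRing 𝒪] [IsLocalRing 𝒪] {ρbar : ResidualGaloisRep (ResidueField 𝒪)}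

omit [IsLocalRing A] in
/-- Coordinates of an element of `I • ⊤` lie in `I`. -/
theorem dictBasis_repr_mem {V : Type} [AddCommGroup V] [Module A V]
    (b : Module.Basis (Fin 2) A V) (I : Ideal A) {x : V}
    (hx : x ∈ I • (⊤ : Submodule A V)) (i : Fin 2) : b.repr x i ∈ I := by
  refine Submodule.smul_induction_on (p := fun x => b.repr x i ∈ I) hx ?_ ?_
  · intro a ha w _
    rw [map_smul, Finsupp.smul_apply, smul_eq_mul]
    exact Ideal.mul_mem_right _ _ ha
  · intro x y hx hy
    rw [map_add, Finsupp.add_apply]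
    exact Ideal.add_mem _ hx hy

/-- The matrix representation attached to a basis of the underlying module. -/
noncomputable def dictBasis_mat (ρ : GaloisRepAdic A) (b : Module.Basis (Fin 2) A ρ.V) :
    Gal →* Mat2 A :=
  ((LinearMap.toMatrixAlgEquiv b : Module.End A ρ.V ≃ₐ[A] Mat2 A) :
    Module.End A ρ.V →* Mat2 A).comp ρ.ρ

theorem dictBasis_mat_apply (ρ : GaloisRepAdic A) (b : Module.Basis (Fin 2) A ρ.V) (g : Gal) :
    dictBasis_mat ρ b g = LinearMap.toMatrix b b (ρ.ρ g) := rfl

theorem dictBasis_isCtsMat (ρ : GaloisRepAdic A) (b : Module.Basis (Fin 2) A ρ.V) :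
    IsCtsMat A (dictBasis_mat ρ b) := by
  intro n
  obtain ⟨L, hL, h⟩ := ρ.isAdicContinuous n
  refine ⟨L, hL, fun σ hσ i j => ?_⟩
  have h1 : (dictBasis_mat ρ b σ - 1) i j = b.repr (ρ.ρ σ (b j) - b j) i := by
    rw [Matrix.sub_apply, dictBasis_mat_apply, LinearMap.toMatrix_apply, map_sub,
      Finsupp.sub_apply, Module.Basis.repr_self, Matrix.one_apply, Finsupp.single_apply]
    simp only [eq_comm]
  rw [h1]
  exact dictBasis_repr_mem b _ (h σ hσ (b j)) i

theorem dictBasis_isEquiv (ρ : GaloisRepAdic A) (b : Module.Basis (Fin 2) A ρ.V) :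
    ρ.IsEquiv (ofMat (dictBasis_mat ρ b) (dictBasis_isCtsMat ρ b)) := by
  refine ⟨⟨b.equivFun, fun σ x => ?_⟩⟩
  show b.equivFun (ρ.ρ σ x) =
    (Matrix.toLinAlgEquiv' (dictBasis_mat ρ b σ) : Module.End A (Fin 2 → A)) (b.equivFun x)
  rw [Matrix.toLinAlgEquiv'_apply, dictBasis_mat_apply]
  have := LinearMap.toMatrix_mulVec_repr b b (ρ.ρ σ) x
  funext i
  have h2 := congrFun this i
  simpa [Module.Basis.equivFun_apply] using h2.symm

/-- Key step, for an arbitrary algebra structure of the residue field of `A` over that of `𝒪`: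
a basis of `ρ.V` lifting (through the residual equivalence) the base change of a basis `b₀` of
`ρbar.V` has matrices reducing to the matrices of `ρbar` in `b₀`. -/
theorem dictBasis_key [Algebra (ResidueField 𝒪) (ResidueField A)]
    (b₀ : Module.Basis (Fin 2) (ResidueField 𝒪) ρbar.V) (ρ : GaloisRepAdic A)
    (e : ResidualGaloisRep.Equiv ρ.residual (ρbar.baseChange (ResidueField A))) :
    ∃ b : Module.Basis (Fin 2) A ρ.V, ∀ (g : Gal) (i j : Fin 2),
      IsLocalRing.residue A (LinearMap.toMatrix b b (ρ.ρ g) i j) =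
        algebraMap (ResidueField 𝒪) (ResidueField A) (LinearMap.toMatrix b₀ b₀ (ρbar.ρ g) i j) := by
  classical
  -- basis of the target
  let bT : Module.Basis (Fin 2) (ResidueField A)
      (TensorProduct (ResidueField 𝒪) (ResidueField A) ρbar.V) :=
    Algebra.TensorProduct.basis (ResidueField A) b₀
  -- basis of the residual module of ρ
  let eL : TensorProduct A (ResidueField A) ρ.V ≃ₗ[ResidueField A]
      TensorProduct (ResidueField 𝒪) (ResidueField A) ρbar.V := e.toLinearEquiv
  let bk : Module.Basis (Fin 2) (ResidueField A) (TensorProduct A (ResidueField A) ρ.V) :=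
    bT.map eL.symm
  have hsurj : Function.Surjective (TensorProduct.mk A (ResidueField A) ρ.V 1) :=
    TensorProduct.mk_surjective A ρ.V (ResidueField A) IsLocalRing.residue_surjective
  choose v hv using fun i => hsurj (bk i)
  have hli : LinearIndependent (ResidueField A)
      (TensorProduct.mk A (ResidueField A) ρ.V 1 ∘ v) := by
    have : (TensorProduct.mk A (ResidueField A) ρ.V 1 ∘ v) = bk := funext hv
    rw [this]
    exact bk.linearIndependent
  have hsp : Submodule.span A (Set.range v) = ⊤ :=
    IsLocalRing.span_eq_top_of_tmul_eq_basis v bk hv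
  let b : Module.Basis (Fin 2) A ρ.V :=
    Module.Basis.mk (Module.IsLocalRing.linearIndependent_of_flat v hli) hsp.ge
  have hb : ∀ i, b i = v i := fun i => by simp [b]
  refine ⟨b, fun g i j => ?_⟩
  -- the two bases agree
  have hbk : Algebra.TensorProduct.basis (ResidueField A) b = bk := by
    apply Module.Basis.eq_of_apply_eq
    intro i
    rw [Algebra.TensorProduct.basis_apply, hb, ← hv i]
    rfl
  -- matrix of the residual action in the basis bk
  have h1 : LinearMap.toMatrix bk bk ((ρ.ρ g).baseChange (ResidueField A)) =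
      (LinearMap.toMatrix b b (ρ.ρ g)).map (algebraMap A (ResidueField A)) := by
    rw [← hbk]
    exact LinearMap.toMatrix_baseChange (ResidueField A) (ρ.ρ g) b b
  have h2 : LinearMap.toMatrix bT bT ((ρbar.ρ g).baseChange (ResidueField A)) =
      (LinearMap.toMatrix b₀ b₀ (ρbar.ρ g)).map
        (algebraMap (ResidueField 𝒪) (ResidueField A)) :=
    LinearMap.toMatrix_baseChange (ResidueField A) (ρbar.ρ g) b₀ b₀
  have h3 : LinearMap.toMatrix bk bk ((ρ.ρ g).baseChange (ResidueField A)) i j =
      LinearMap.toMatrix bT bT ((ρbar.ρ g).baseChange (ResidueField A)) i j := by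
    rw [LinearMap.toMatrix_apply, LinearMap.toMatrix_apply]
    have hbkj : eL (bk j) = bT j := by
      simp [bk]
    have hrepr : ∀ x, bk.repr x = bT.repr (eL x) := by
      intro x
      simp [bk]
    rw [hrepr]
    have hmap' : eL (((ρ.ρ g).baseChange (ResidueField A)) (bk j)) =
        ((ρbar.ρ g).baseChange (ResidueField A)) (eL (bk j)) := e.map_apply g (bk j)
    rw [hmap', hbkj]
  rw [h1, h2] at h3
  simp only [Matrix.map_apply] at h3
  exact h3

/-- D6. Every Galois representation over `A` whose residual representation is equivalent to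
`ρbar` is equivalent to `ofMat M` for a matrix representation `M` lifting `fr.Mbar`. -/
theorem exists_ofMat_isEquiv (fr : Frame ρbar) [Algebra 𝒪 A] [IsLocalHom (algebraMap 𝒪 A)]
    (ρ : GaloisRepAdic A)
    (h : ρ.residual.IsEquiv (ρbar.baseChangeAlong (ResidueField.map (algebraMap 𝒪 A)))) :
    ∃ (M : Gal →* Mat2 A) (hM : IsCtsMat A M), ρ.IsEquiv (ofMat M hM) ∧ fr.IsLiftOf M := by
  obtain ⟨e⟩ := h
  obtain ⟨b, hb⟩ := @dictBasis_key A _ _ 𝒪 _ _ ρbar
    (ResidueField.map (algebraMap 𝒪 A)).toAlgebra fr.b ρ e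
  refine ⟨dictBasis_mat ρ b, dictBasis_isCtsMat ρ b, dictBasis_isEquiv ρ b, ?_⟩
  intro g i j a ha
  have h4 : IsLocalRing.residue A (dictBasis_mat ρ b g i j) =
      IsLocalRing.residue A (algebraMap 𝒪 A a) := by
    rw [dictBasis_mat_apply, hb g i j]
    have h5 : (ResidueField.map (algebraMap 𝒪 A))
        (LinearMap.toMatrix fr.b fr.b (ρbar.ρ g) i j) =
        ResidueField.map (algebraMap 𝒪 A) (fr.Mbar g i j) := rfl
    show (ResidueField.map (algebraMap 𝒪 A)) (LinearMap.toMatrix fr.b fr.b (ρbar.ρ g) i j) = _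
    rw [h5, ← ha, ResidueField.map_residue]
  rw [← Ideal.Quotient.eq]
  exact h4

end Fermat.Agent.S53
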