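/-
S53 work package D-c (D4, D5).  STATEMENTS ARE FROZEN (squad interface): do not change them.
Replace each `sorry` by a proof.  Helper lemmas: add them in THIS file, inside
`namespace Fermat.Agent.S53`, with names prefixed `dictConj_` (fresh names).
-/
import Fermat.Agent.S53.Defs

set_option autoImplicit false

namespace Fermat.Agent.S53

open IsLocalRing GaloisRep

variable {A : Type} [CommRing A] [IsLocalRing A]

/-- The action of `ofMat M` is `mulVec`. -/
theorem dictConj_ofMat_rho_apply (M : Gal →* Mat2 A) (hM : IsCtsMat A M) (g : Gal)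
    (v : Fin 2 → A) : (ofMat M hM).ρ g v = (M g).mulVec v := rfl

/-- The linear equivalence of `A²` attached to an invertible matrix. -/
noncomputable def dictConj_linEquiv (P : (Mat2 A)ˣ) : (Fin 2 → A) ≃ₗ[A] (Fin 2 → A) :=
  LinearEquiv.ofLinear (Matrix.toLin' (P : Mat2 A)) (Matrix.toLin' ((P⁻¹ : (Mat2 A)ˣ) : Mat2 A))
    (by rw [← Matrix.toLin'_mul, Units.mul_inv, Matrix.toLin'_one])
    (by rw [← Matrix.toLin'_mul, Units.inv_mul, Matrix.toLin'_one])

omit [IsLocalRing A] in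
theorem dictConj_linEquiv_apply (P : (Mat2 A)ˣ) (v : Fin 2 → A) :
    dictConj_linEquiv P v = (P : Mat2 A).mulVec v := rfl

/-- D4. Conjugate matrix representations give equivalent Galois representations. -/
theorem ofMat_isEquiv_of_conj (M M' : Gal →* Mat2 A) (hM : IsCtsMat A M) (hM' : IsCtsMat A M')
    (P : (Mat2 A)ˣ) (hP : ∀ g, (P : Mat2 A) * M g = M' g * P) :
    (ofMat M hM).IsEquiv (ofMat M' hM') := by
  refine ⟨⟨dictConj_linEquiv P, fun σ x => ?_⟩⟩
  show (P : Mat2 A).mulVec ((M σ).mulVec x) = (M' σ).mulVec ((P : Mat2 A).mulVec x)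
  rw [Matrix.mulVec_mulVec, Matrix.mulVec_mulVec, hP σ]

/-- D5. Equivalent `ofMat`s are conjugate. -/
theorem exists_conj_of_ofMat_isEquiv (M M' : Gal →* Mat2 A) (hM : IsCtsMat A M)
    (hM' : IsCtsMat A M') (h : (ofMat M hM).IsEquiv (ofMat M' hM')) :
    ∃ P : (Mat2 A)ˣ, ∀ g, (P : Mat2 A) * M g = M' g * P := by
  obtain ⟨e⟩ := h
  let f : (Fin 2 → A) ≃ₗ[A] (Fin 2 → A) := e.toLinearEquiv
  have hf : ∀ (σ : Gal) (x : Fin 2 → A), f ((M σ).mulVec x) = (M' σ).mulVec (f x) :=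
    fun σ x => e.map_apply σ x
  have h1 : LinearMap.toMatrix' (f : (Fin 2 → A) →ₗ[A] (Fin 2 → A)) *
      LinearMap.toMatrix' (f.symm : (Fin 2 → A) →ₗ[A] (Fin 2 → A)) = 1 := by
    rw [← LinearMap.toMatrix'_comp, LinearEquiv.comp_coe, LinearEquiv.symm_trans_self,
      LinearEquiv.refl_toLinearMap, LinearMap.toMatrix'_id]
  have h2 : LinearMap.toMatrix' (f.symm : (Fin 2 → A) →ₗ[A] (Fin 2 → A)) *
      LinearMap.toMatrix' (f : (Fin 2 → A) →ₗ[A] (Fin 2 → A)) = 1 := by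
    rw [← LinearMap.toMatrix'_comp, LinearEquiv.comp_coe, LinearEquiv.self_trans_symm,
      LinearEquiv.refl_toLinearMap, LinearMap.toMatrix'_id]
  refine ⟨⟨LinearMap.toMatrix' (f : (Fin 2 → A) →ₗ[A] (Fin 2 → A)),
    LinearMap.toMatrix' (f.symm : (Fin 2 → A) →ₗ[A] (Fin 2 → A)), h1, h2⟩, fun g => ?_⟩
  show LinearMap.toMatrix' (f : (Fin 2 → A) →ₗ[A] (Fin 2 → A)) * M g =
    M' g * LinearMap.toMatrix' (f : (Fin 2 → A) →ₗ[A] (Fin 2 → A))
  apply Matrix.toLin'.injective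
  apply LinearMap.ext
  intro x
  rw [Matrix.toLin'_mul, Matrix.toLin'_mul, Matrix.toLin'_toMatrix', LinearMap.comp_apply,
    LinearMap.comp_apply, Matrix.toLin'_apply, Matrix.toLin'_apply]
  exact hf g x

end Fermat.Agent.S53
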