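/-
S53 work package D-a (D1, D3).  STATEMENTS ARE FROZEN (squad interface): do not change them.
Replace each `sorry` by a proof.  Helper lemmas: add them in THIS file, inside
`namespace Fermat.Agent.S53`, with names prefixed `dictCts_` (fresh names).
-/
import Fermat.Agent.S53.Defs

set_option autoImplicit false

namespace Fermat.Agent.S53

open IsLocalRing GaloisRep

variable {A : Type} [CommRing A] [IsLocalRing A]

/-- A local homomorphism maps powers of the maximal ideal into powers of the maximal ideal. -/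
theorem dictCts_map_mem_pow {B : Type} [CommRing B] [IsLocalRing B] (φ : A →+* B)
    (hφ : IsLocalHom φ) (n : ℕ) {a : A} (ha : a ∈ maximalIdeal A ^ n) :
    φ a ∈ maximalIdeal B ^ n := by
  have h1 : (maximalIdeal A).map φ ≤ maximalIdeal B := by
    rw [Ideal.map_le_iff_le_comap]
    intro x hx
    exact Ideal.mem_comap.mpr (haveI := hφ; map_nonunit φ x hx)
  have h2 : (maximalIdeal A ^ n).map φ ≤ maximalIdeal B ^ n := by
    rw [Ideal.map_pow]
    exact Ideal.pow_right_mono h1 n
  exact h2 (Ideal.mem_map_of_mem φ ha)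

/-- D1. Continuity is preserved by local homomorphisms. -/
theorem IsCtsMat.mapMat {B : Type} [CommRing B] [IsLocalRing B] {M : Gal →* Mat2 A}
    (hM : IsCtsMat A M) (φ : A →+* B) (hφ : IsLocalHom φ) : IsCtsMat B (mapMat φ M) := by
  intro n
  obtain ⟨L, hL, h⟩ := hM n
  refine ⟨L, hL, fun σ hσ i j => ?_⟩
  have h1 : (Fermat.Agent.S53.mapMat φ M σ - 1) i j = φ ((M σ - 1) i j) := by
    rw [Matrix.sub_apply, Matrix.sub_apply, mapMat_apply, map_sub]
    congr 1
    by_cases hij : i = j
    · subst hij; simp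
    · simp [Matrix.one_apply_ne hij]
  rw [h1]
  exact dictCts_map_mem_pow φ hφ n (h σ hσ i j)

/-- D3. Continuity is preserved by conjugation: if `P * M g = M' g * P` with `P` invertible. -/
theorem IsCtsMat.of_conj {M M' : Gal →* Mat2 A} (hM : IsCtsMat A M) (P : (Mat2 A)ˣ)
    (hP : ∀ g, (P : Mat2 A) * M g = M' g * P) : IsCtsMat A M' := by
  intro n
  obtain ⟨L, hL, h⟩ := hM n
  refine ⟨L, hL, fun σ hσ i j => ?_⟩
  have h1 : M' σ - 1 = (P : Mat2 A) * (M σ - 1) * ((P⁻¹ : (Mat2 A)ˣ) : Mat2 A) := by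
    have h2 : M' σ = (P : Mat2 A) * M σ * ((P⁻¹ : (Mat2 A)ˣ) : Mat2 A) := by
      rw [hP σ, mul_assoc, Units.mul_inv, mul_one]
    rw [h2, mul_sub, sub_mul, mul_one, Units.mul_inv]
  rw [h1, Matrix.mul_apply]
  refine Ideal.sum_mem _ fun k _ => ?_
  rw [Matrix.mul_apply]
  refine Ideal.mul_mem_right _ _ (Ideal.sum_mem _ fun l _ => ?_)
  exact Ideal.mul_mem_left _ _ (h σ hσ l k)

end Fermat.Agent.S53
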