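/-
S53 work package D-e (D7).  STATEMENTS ARE FROZEN (squad interface): do not change them.
Replace each `sorry` by a proof.  Helper lemmas: add them in THIS file, inside
`namespace Fermat.Agent.S53`, with names prefixed `dictRes_` (fresh names).
-/
import Fermat.Agent.S53.Defs

set_option autoImplicit false

namespace Fermat.Agent.S53

open IsLocalRing GaloisRep
open scoped TensorProduct

/-- General comparison: the base change to a field `K` of the standard free module `A²` and of a
`k`-vector space `V` with a basis `b` are identified by an equivalence that intertwines the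
base change of `toLin' N` with the base change of `f` whenever the images in `K` of the entries
of `N` are the images of the entries of the matrix of `f` in the basis `b`. -/
theorem dictRes_general {A : Type} [CommRing A] {k K : Type} [Field k] [Field K] [Algebra A K]
    [Algebra k K] {V : Type} [AddCommGroup V] [Module k V] (b : Module.Basis (Fin 2) k V) :
    ∃ e : (K ⊗[A] (Fin 2 → A)) ≃ₗ[K] (K ⊗[k] V),
      ∀ (N : Mat2 A) (f : V →ₗ[k] V),
        (∀ i j, algebraMap A K (N i j) = algebraMap k K (LinearMap.toMatrix b b f i j)) →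
        ∀ x, e (((Matrix.toLinAlgEquiv' : Mat2 A ≃ₐ[A] Module.End A (Fin 2 → A)) N).baseChange K x)
          = f.baseChange K (e x) := by
  classical
  let b₁ : Module.Basis (Fin 2) K (K ⊗[A] (Fin 2 → A)) := (Pi.basisFun A (Fin 2)).baseChange K
  let b₂ : Module.Basis (Fin 2) K (K ⊗[k] V) := b.baseChange K
  let e : (K ⊗[A] (Fin 2 → A)) ≃ₗ[K] (K ⊗[k] V) := b₁.repr.trans b₂.repr.symm
  have he : ∀ y, b₂.repr (e y) = b₁.repr y := fun y => by
    simp only [e, LinearEquiv.trans_apply, LinearEquiv.apply_symm_apply]
  have heb : ∀ j, e (b₁ j) = b₂ j := fun j => by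
    apply b₂.repr.injective
    rw [he, Module.Basis.repr_self, Module.Basis.repr_self]
  refine ⟨e, fun N f h x => ?_⟩
  have key : e.toLinearMap ∘ₗ
        (((Matrix.toLinAlgEquiv' : Mat2 A ≃ₐ[A] Module.End A (Fin 2 → A)) N).baseChange K)
      = (f.baseChange K) ∘ₗ e.toLinearMap := by
    refine b₁.ext fun j => ?_
    apply b₂.repr.injective
    ext i
    rw [LinearMap.comp_apply, LinearMap.comp_apply, LinearEquiv.coe_coe, he, heb]
    simp only [b₁, b₂, Module.Basis.baseChange_apply, LinearMap.baseChange_tmul,
      Module.Basis.baseChange_repr_tmul, Pi.basisFun_repr, Pi.basisFun_apply,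
      Matrix.toLinAlgEquiv'_apply, Matrix.mulVec_single_one, Matrix.col_apply]
    rw [← LinearMap.toMatrix_apply, Algebra.smul_def, Algebra.smul_def, mul_one, mul_one, h]
  exact LinearMap.congr_fun key x

variable {A : Type} [CommRing A] [IsLocalRing A]

variable {𝒪 : Type} [CommRing 𝒪] [IsLocalRing 𝒪] {ρbar : ResidualGaloisRep (ResidueField 𝒪)}

/-- The residue of an entry of a lift of `fr.Mbar` is the image of the residual entry. -/
theorem dictRes_residue_entry (fr : Frame ρbar) [Algebra 𝒪 A] [IsLocalHom (algebraMap 𝒪 A)]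
    (M : Gal →* Mat2 A) (hl : fr.IsLiftOf M) (g : Gal) (i j : Fin 2) :
    IsLocalRing.residue A (M g i j) = ResidueField.map (algebraMap 𝒪 A) (fr.Mbar g i j) := by
  obtain ⟨a, ha⟩ := IsLocalRing.residue_surjective (fr.Mbar g i j)
  have h := hl g i j a ha
  rw [← ha, ResidueField.map_residue]
  have h0 := (IsLocalRing.residue_eq_zero_iff _).mpr h
  rw [map_sub, sub_eq_zero] at h0
  exact h0

/-- D7. If `M` lifts `fr.Mbar` then the residual representation of `ofMat M` is `ρbar`. -/
theorem ofMat_residual_isEquiv (fr : Frame ρbar) [Algebra 𝒪 A] [IsLocalHom (algebraMap 𝒪 A)]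
    (M : Gal →* Mat2 A) (hM : IsCtsMat A M) (hl : fr.IsLiftOf M) :
    (ofMat M hM).residual.IsEquiv
      (ρbar.baseChangeAlong (ResidueField.map (algebraMap 𝒪 A))) := by
  obtain ⟨e, he⟩ := @dictRes_general A _ (ResidueField 𝒪) (ResidueField A) _ _ _
    (ResidueField.map (algebraMap 𝒪 A)).toAlgebra ρbar.V _ _ fr.b
  refine ⟨⟨e, fun σ x => ?_⟩⟩
  exact he (M σ) (ρbar.ρ σ) (fun i j => dictRes_residue_entry fr M hl σ i j) x

end Fermat.Agent.S53
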