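/- S53 work package D (dictionary GaloisRepAdic <-> matrices): umbrella file. -/
import Fermat.Agent.S53.DictCts
import Fermat.Agent.S53.DictBC
import Fermat.Agent.S53.DictConj
import Fermat.Agent.S53.DictBasis
import Fermat.Agent.S53.DictRes
import Fermat.Agent.S53.DictBar
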