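/-
S53 work package N-b (N2): existence of the rigid normal form.  PROVED (helper4673).
The statement `Frame.exists_rigid_conj` is the frozen squad interface statement, unchanged.
Helper lemmas live in this file, inside `namespace Fermat.Agent.S53`, prefixed `rigE_`.
-/
import Fermat.Agent.S53.Defs

set_option autoImplicit false
set_option linter.unusedSimpArgs false
set_option linter.unusedSectionVars false

namespace Fermat.Agent.S53

open IsLocalRing GaloisRep

section rigE_aux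

variable {A : Type} [CommRing A]

/-- the change of basis matrix with columns `v = e1 + y e2` and `N v`. -/
def rigE_normP (N : Mat2 A) (y : A) : Mat2 A :=
  !![1, N 0 0 + N 0 1 * y; y, N 1 0 + N 1 1 * y]

theorem rigE_normP_mul_col (N : Mat2 A) (y : A) (i : Fin 2) :
    (N * rigE_normP N y) i 0 = rigE_normP N y i 1 := by
  fin_cases i <;> simp [rigE_normP, Matrix.mul_apply, Fin.sum_univ_two]

theorem rigE_mul3_apply (X M P : Mat2 A) (i j : Fin 2) :
    (X * M * P) i j = (X i 0 * M 0 0 + X i 1 * M 1 0) * P 0 j +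
      (X i 0 * M 0 1 + X i 1 * M 1 1) * P 1 j := by
  simp [Matrix.mul_apply, Fin.sum_univ_two]

theorem rigE_comm_apply (N M : Mat2 A) (i j : Fin 2) :
    (N * M - M * N) i j = N i 0 * M 0 j + N i 1 * M 1 j - (M i 0 * N 0 j + M i 1 * N 1 j) := by
  simp [Matrix.mul_apply, Fin.sum_univ_two]

/-- entrywise congruence is compatible with products -/
theorem rigE_mul_sub_mem (I : Ideal A) (X X' Y Y' : Mat2 A) (hX : ∀ i j, X i j - X' i j ∈ I)
    (hY : ∀ i j, Y i j - Y' i j ∈ I) (i j : Fin 2) : (X * Y) i j - (X' * Y') i j ∈ I := by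
  have : (X * Y) i j - (X' * Y') i j
      = ∑ k, ((X i k - X' i k) * Y k j + X' i k * (Y k j - Y' k j)) := by
    simp only [Matrix.mul_apply, ← Finset.sum_sub_distrib]
    exact Finset.sum_congr rfl fun k _ => by ring
  rw [this]
  exact Ideal.sum_mem _ fun k _ => Ideal.add_mem _ (Ideal.mul_mem_right _ _ (hX i k))
    (Ideal.mul_mem_left _ _ (hY k j))

variable [IsLocalRing A]

/-- In a local ring, an element congruent to a unit modulo the maximal ideal is a unit. -/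
theorem rigE_isUnit_of_sub_mem {a b : A} (hb : IsUnit b) (h : a - b ∈ maximalIdeal A) :
    IsUnit a := by
  by_contra ha
  have ha' : a ∈ maximalIdeal A := (IsLocalRing.mem_maximalIdeal a).2 ha
  have hb' : b ∈ maximalIdeal A := by
    have := Ideal.sub_mem _ ha' h
    simpa using this
  exact ((IsLocalRing.mem_maximalIdeal b).1 hb') hb

/-- Hensel: `p0 + p1 y + p2 y^2` with `p0 ∈ m`, `p1` a unit has a root in `m`. -/
theorem rigE_exists_quad_root [HenselianRing A (maximalIdeal A)] (p0 p1 p2 : A)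
    (h0 : p0 ∈ maximalIdeal A) (h1 : IsUnit p1) :
    ∃ y ∈ maximalIdeal A, p0 + p1 * y + p2 * y ^ 2 = 0 := by
  classical
  let f : Polynomial A :=
    Polynomial.X ^ 2 + Polynomial.C p1 * Polynomial.X + Polynomial.C (p0 * p2)
  have hf : f.Monic := by
    have : f = Polynomial.X ^ 2 + (Polynomial.C p1 * Polynomial.X + Polynomial.C (p0 * p2)) := by
      simp only [f]; ring
    rw [this]
    apply Polynomial.monic_X_pow_add
    refine lt_of_le_of_lt (Polynomial.degree_linear_le) ?_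
    norm_num
  have he : Polynomial.eval 0 f ∈ maximalIdeal A := by
    simp only [f, Polynomial.eval_add, Polynomial.eval_mul, Polynomial.eval_pow, Polynomial.eval_X,
      Polynomial.eval_C]
    have : (0:A) ^ 2 + p1 * 0 + p0 * p2 = p0 * p2 := by ring
    rw [this]
    exact Ideal.mul_mem_right _ _ h0
  have hd : IsUnit ((Ideal.Quotient.mk (maximalIdeal A))
      (Polynomial.eval 0 (Polynomial.derivative f))) := by
    have : Polynomial.eval 0 (Polynomial.derivative f) = p1 := by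
      simp [f]
    rw [this]
    exact h1.map _
  obtain ⟨w, hw, hwm⟩ := HenselianRing.is_henselian f hf 0 he hd
  rw [sub_zero] at hwm
  have hw' : w ^ 2 + p1 * w + p0 * p2 = 0 := by
    have := hw
    simp only [Polynomial.IsRoot, f, Polynomial.eval_add, Polynomial.eval_mul, Polynomial.eval_pow,
      Polynomial.eval_X, Polynomial.eval_C] at this
    exact this
  have hs : IsUnit (p1 + w) := by
    refine rigE_isUnit_of_sub_mem h1 ?_
    simpa using hwm
  obtain ⟨s', hs'⟩ := hs.exists_right_inv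
  refine ⟨-p0 * s', Ideal.mul_mem_right _ _ (by simpa using h0), ?_⟩
  linear_combination (p0 * s' ^ 2) * hw' + (-p0 - p0 * s' * w) * hs'

/-- Normalisation: if `N` is a companion matrix modulo `m`, `M i0 j0 ≡ c` and the `(i0, j0)`
entry of the commutator is a unit, then some `P ≡ 1` conjugates `N` to an exact companion
matrix and `M` to a matrix with `(i0, j0)` entry equal to `c`. -/
theorem rigE_exists_normalizer [HenselianRing A (maximalIdeal A)] (N M : Mat2 A)
    (i0 j0 : Fin 2) (c : A)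
    (hN0 : N 0 0 ∈ maximalIdeal A) (hN1 : N 1 0 - 1 ∈ maximalIdeal A)
    (hM : M i0 j0 - c ∈ maximalIdeal A) (hu : IsUnit ((N * M - M * N) i0 j0)) :
    ∃ P : Mat2 A, IsUnit P.det ∧ (∀ i j, (P - 1) i j ∈ maximalIdeal A) ∧
      (P⁻¹ * N * P) 0 0 = 0 ∧ (P⁻¹ * N * P) 1 0 = 1 ∧ (P⁻¹ * M * P) i0 j0 = c := by
  -- the quadratic
  obtain ⟨y, hy, hq⟩ : ∃ y ∈ maximalIdeal A,
      ((rigE_normP N y).adjugate * M * rigE_normP N y) i0 j0 = c * (rigE_normP N y).det := by
    have hi : i0 = 0 ∨ i0 = 1 := by fin_cases i0 <;> simp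
    have hj : j0 = 0 ∨ j0 = 1 := by fin_cases j0 <;> simp
    rw [rigE_comm_apply] at hu
    rcases hi with rfl | rfl <;> rcases hj with rfl | rfl
    · -- (0, 0)
      have h0 : N 1 0 * M 0 0 - N 0 0 * M 1 0 - c * N 1 0 ∈ maximalIdeal A := by
        have : N 1 0 * M 0 0 - N 0 0 * M 1 0 - c * N 1 0
            = N 1 0 * (M 0 0 - c) - M 1 0 * N 0 0 := by ring
        rw [this]
        exact Ideal.sub_mem _ (Ideal.mul_mem_left _ _ hM) (Ideal.mul_mem_left _ _ hN0)
      have h1 : IsUnit (N 1 0 * M 0 1 + N 1 1 * M 0 0 - N 0 0 * M 1 1 - N 0 1 * M 1 0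
          - c * (N 1 1 - N 0 0)) := by
        refine rigE_isUnit_of_sub_mem hu.neg ?_
        have : N 1 0 * M 0 1 + N 1 1 * M 0 0 - N 0 0 * M 1 1 - N 0 1 * M 1 0
            - c * (N 1 1 - N 0 0)
            - -(N 0 0 * M 0 0 + N 0 1 * M 1 0 - (M 0 0 * N 0 0 + M 0 1 * N 1 0))
            = N 1 1 * (M 0 0 - c) - (M 1 1 - c) * N 0 0 := by
          ring
        rw [this]
        exact Ideal.sub_mem _ (Ideal.mul_mem_left _ _ hM) (Ideal.mul_mem_left _ _ hN0)
      obtain ⟨y, hy, e⟩ := rigE_exists_quad_root _ _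
        (N 1 1 * M 0 1 - N 0 1 * M 1 1 + c * N 0 1) h0 h1
      refine ⟨y, hy, ?_⟩
      rw [rigE_mul3_apply, Matrix.adjugate_fin_two, Matrix.det_fin_two]
      simp [rigE_normP]
      linear_combination e
    · -- (0, 1)
      have h0 : N 0 0 * N 1 0 * (M 0 0 - M 1 1) - N 0 0 ^ 2 * M 1 0 + N 1 0 ^ 2 * M 0 1
          - c * N 1 0 ∈ maximalIdeal A := by
        have : N 0 0 * N 1 0 * (M 0 0 - M 1 1) - N 0 0 ^ 2 * M 1 0 + N 1 0 ^ 2 * M 0 1
            - c * N 1 0 = (N 1 0 * (M 0 0 - M 1 1) - N 0 0 * M 1 0) * N 0 0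
              + (N 1 0 * M 0 1) * (N 1 0 - 1) + N 1 0 * (M 0 1 - c) := by ring
        rw [this]
        exact Ideal.add_mem _ (Ideal.add_mem _ (Ideal.mul_mem_left _ _ hN0)
          (Ideal.mul_mem_left _ _ hN1)) (Ideal.mul_mem_left _ _ hM)
      have h1 : IsUnit ((N 0 0 * N 1 1 + N 0 1 * N 1 0) * (M 0 0 - M 1 1)
          - 2 * N 0 0 * N 0 1 * M 1 0 + 2 * N 1 0 * N 1 1 * M 0 1 - c * (N 1 1 - N 0 0)) := by
        refine rigE_isUnit_of_sub_mem hu.neg ?_
        have : (N 0 0 * N 1 1 + N 0 1 * N 1 0) * (M 0 0 - M 1 1)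
            - 2 * N 0 0 * N 0 1 * M 1 0 + 2 * N 1 0 * N 1 1 * M 0 1 - c * (N 1 1 - N 0 0)
            - -(N 0 0 * M 0 1 + N 0 1 * M 1 1 - (M 0 0 * N 0 1 + M 0 1 * N 1 1))
            = (N 1 1 * (M 0 0 - M 1 1) - 2 * N 0 1 * M 1 0 + c + M 0 1) * N 0 0
              + (N 0 1 * (M 0 0 - M 1 1) + 2 * N 1 1 * M 0 1) * (N 1 0 - 1)
              + N 1 1 * (M 0 1 - c) := by
          ring
        rw [this]
        exact Ideal.add_mem _ (Ideal.add_mem _ (Ideal.mul_mem_left _ _ hN0)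
          (Ideal.mul_mem_left _ _ hN1)) (Ideal.mul_mem_left _ _ hM)
      obtain ⟨y, hy, e⟩ := rigE_exists_quad_root _ _
        (N 0 1 * N 1 1 * (M 0 0 - M 1 1) - N 0 1 ^ 2 * M 1 0 + N 1 1 ^ 2 * M 0 1 + c * N 0 1) h0 h1
      refine ⟨y, hy, ?_⟩
      rw [rigE_mul3_apply, Matrix.adjugate_fin_two, Matrix.det_fin_two]
      simp [rigE_normP]
      linear_combination e
    · -- (1, 0)
      have h0 : M 1 0 - c * N 1 0 ∈ maximalIdeal A := by
        have : M 1 0 - c * N 1 0 = (M 1 0 - c) - c * (N 1 0 - 1) := by ring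
        rw [this]
        exact Ideal.sub_mem _ hM (Ideal.mul_mem_left _ _ hN1)
      have h1 : IsUnit (M 1 1 - M 0 0 - c * (N 1 1 - N 0 0)) := by
        refine rigE_isUnit_of_sub_mem hu.neg ?_
        have : M 1 1 - M 0 0 - c * (N 1 1 - N 0 0)
            - -(N 1 0 * M 0 0 + N 1 1 * M 1 0 - (M 1 0 * N 0 0 + M 1 1 * N 1 0))
            = (M 0 0 - M 1 1) * (N 1 0 - 1) + (N 1 1 - N 0 0) * (M 1 0 - c) := by
          ring
        rw [this]
        exact Ideal.add_mem _ (Ideal.mul_mem_left _ _ hN1) (Ideal.mul_mem_left _ _ hM)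
      obtain ⟨y, hy, e⟩ := rigE_exists_quad_root _ _ (- M 0 1 + c * N 0 1) h0 h1
      refine ⟨y, hy, ?_⟩
      rw [rigE_mul3_apply, Matrix.adjugate_fin_two, Matrix.det_fin_two]
      simp [rigE_normP]
      linear_combination e
    · -- (1, 1)
      have h0 : M 1 0 * N 0 0 + M 1 1 * N 1 0 - c * N 1 0 ∈ maximalIdeal A := by
        have : M 1 0 * N 0 0 + M 1 1 * N 1 0 - c * N 1 0
            = M 1 0 * N 0 0 + N 1 0 * (M 1 1 - c) := by ring
        rw [this]
        exact Ideal.add_mem _ (Ideal.mul_mem_left _ _ hN0) (Ideal.mul_mem_left _ _ hM)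
      have h1 : IsUnit (M 1 0 * N 0 1 + M 1 1 * N 1 1 - M 0 0 * N 0 0 - M 0 1 * N 1 0
          - c * (N 1 1 - N 0 0)) := by
        refine rigE_isUnit_of_sub_mem hu.neg ?_
        have : M 1 0 * N 0 1 + M 1 1 * N 1 1 - M 0 0 * N 0 0 - M 0 1 * N 1 0
            - c * (N 1 1 - N 0 0)
            - -(N 1 0 * M 0 1 + N 1 1 * M 1 1 - (M 1 0 * N 0 1 + M 1 1 * N 1 1))
            = N 1 1 * (M 1 1 - c) - (M 0 0 - c) * N 0 0 := by
          ring
        rw [this]
        exact Ideal.sub_mem _ (Ideal.mul_mem_left _ _ hM) (Ideal.mul_mem_left _ _ hN0)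
      obtain ⟨y, hy, e⟩ := rigE_exists_quad_root _ _
        (-(M 0 0 * N 0 1 + M 0 1 * N 1 1) + c * N 0 1) h0 h1
      refine ⟨y, hy, ?_⟩
      rw [rigE_mul3_apply, Matrix.adjugate_fin_two, Matrix.det_fin_two]
      simp [rigE_normP]
      linear_combination e
  set P := rigE_normP N y with hP
  have hdet : IsUnit P.det := by
    refine rigE_isUnit_of_sub_mem isUnit_one ?_
    have : P.det - 1 = (N 1 0 - 1) + (N 1 1 - N 0 0 - N 0 1 * y) * y := by
      simp [hP, rigE_normP, Matrix.det_fin_two]; ring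
    rw [this]
    exact Ideal.add_mem _ hN1 (Ideal.mul_mem_left _ _ hy)
  have hPinv : P⁻¹ * P = 1 := Matrix.nonsing_inv_mul P hdet
  refine ⟨P, hdet, ?_, ?_, ?_, ?_⟩
  · intro i j
    fin_cases i <;> fin_cases j
    · simp [hP, rigE_normP]
    · simpa [hP, rigE_normP] using Ideal.add_mem _ hN0 (Ideal.mul_mem_left _ (N 0 1) hy)
    · simpa [hP, rigE_normP] using hy
    · have : N 1 0 + N 1 1 * y - 1 = (N 1 0 - 1) + N 1 1 * y := by ring
      simpa [hP, rigE_normP, this] using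
        Ideal.add_mem _ hN1 (Ideal.mul_mem_left _ (N 1 1) hy)
  · have : (P⁻¹ * N * P) 0 0 = (P⁻¹ * P) 0 1 := by
      rw [Matrix.mul_assoc, Matrix.mul_apply, Matrix.mul_apply]
      exact Finset.sum_congr rfl (fun k _ => by rw [rigE_normP_mul_col])
    rw [this, hPinv]; simp
  · have : (P⁻¹ * N * P) 1 0 = (P⁻¹ * P) 1 1 := by
      rw [Matrix.mul_assoc, Matrix.mul_apply, Matrix.mul_apply]
      exact Finset.sum_congr rfl (fun k _ => by rw [rigE_normP_mul_col])
    rw [this, hPinv]; simp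
  · have hd' : P.det * Ring.inverse P.det = 1 := Ring.mul_inverse_cancel _ hdet
    rw [Matrix.inv_def, Matrix.smul_mul, Matrix.smul_mul, Matrix.smul_apply, hq, smul_eq_mul]
    linear_combination c * hd'

end rigE_aux

variable {𝒪 : Type} [CommRing 𝒪] [IsLocalRing 𝒪] {ρbar : ResidualGaloisRep (ResidueField 𝒪)}

/-- N2 (existence; complete local ring).  Every lift of `fr.Mbar` is conjugate to a rigid lift.
Proof sketch: conjugate by `[e₁ | M g0 e₁]⁻¹` (≡ 1 mod m), then by `1 + y C` with `y ∈ m` a root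
of a quadratic `q0 + q1 y + q2 y²` (`q0 ∈ m`, `q1` a unit), obtained from Hensel
(`IsAdicComplete.henselianRing`) applied to the monic `w² + q1 w + q0 q2`, `y = -q0/(w+q1)`. -/
theorem Frame.exists_rigid_conj (fr : Frame ρbar) {A : Type} [CommRing A] [IsLocalRing A]
    [IsAdicComplete (maximalIdeal A) A] [Algebra 𝒪 A] [IsLocalHom (algebraMap 𝒪 A)]
    (M : Gal →* Mat2 A) (hl : fr.IsLiftOf M) :
    ∃ (M' : Gal →* Mat2 A) (P : (Mat2 A)ˣ), (∀ g, (P : Mat2 A) * M g = M' g * P) ∧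
      fr.IsRigid M' ∧ fr.IsLiftOf M' := by
  classical
  have hMbar : ∀ g i j, fr.Mbar g i j = LinearMap.toMatrix fr.b fr.b (ρbar.ρ g) i j :=
    fun _ _ _ => rfl
  -- set-theoretic lifts of the entries of `Mbar g0`, `Mbar g1`
  have hsurj : Function.Surjective (IsLocalRing.residue 𝒪) := IsLocalRing.residue_surjective
  choose l hl' using hsurj
  obtain ⟨A0, hA0r⟩ : ∃ A0 : Mat2 𝒪, ∀ i j, IsLocalRing.residue 𝒪 (A0 i j) = fr.Mbar fr.g0 i j :=
    ⟨fun i j => l (fr.Mbar fr.g0 i j), fun i j => hl' _⟩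
  obtain ⟨A1, hA1r⟩ : ∃ A1 : Mat2 𝒪, ∀ i j, IsLocalRing.residue 𝒪 (A1 i j) = fr.Mbar fr.g1 i j :=
    ⟨fun i j => l (fr.Mbar fr.g1 i j), fun i j => hl' _⟩
  have hA0 : ∀ i j, M fr.g0 i j - (A0.map (algebraMap 𝒪 A)) i j ∈ maximalIdeal A :=
    fun i j => hl _ _ _ _ (hA0r i j)
  have hA1 : ∀ i j, M fr.g1 i j - (A1.map (algebraMap 𝒪 A)) i j ∈ maximalIdeal A :=
    fun i j => hl _ _ _ _ (hA1r i j)
  have hN0 : M fr.g0 0 0 ∈ maximalIdeal A := by
    have := hl fr.g0 0 0 0 (by rw [map_zero, hMbar, fr.h00])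
    simpa using this
  have hN1 : M fr.g0 1 0 - 1 ∈ maximalIdeal A := by
    have := hl fr.g0 1 0 1 (by rw [map_one, hMbar, fr.h10])
    simpa using this
  have hM1 : M fr.g1 fr.i0 fr.j0 - algebraMap 𝒪 A fr.c ∈ maximalIdeal A :=
    hl _ _ _ _ (by rw [hMbar]; exact fr.hc)
  -- the commutator entry is a unit
  have hx : IsUnit ((A0 * A1 - A1 * A0) fr.i0 fr.j0) := by
    by_contra hnu
    have hm := (IsLocalRing.mem_maximalIdeal _).2 hnu
    rw [← IsLocalRing.residue_eq_zero_iff] at hm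
    apply fr.hcomm
    rw [← hm]
    simp only [Matrix.sub_apply, Matrix.mul_apply, Fin.sum_univ_two, map_sub, map_add, map_mul,
      hA0r, hA1r, hMbar]
  have hu : IsUnit ((M fr.g0 * M fr.g1 - M fr.g1 * M fr.g0) fr.i0 fr.j0) := by
    refine rigE_isUnit_of_sub_mem (hx.map (algebraMap 𝒪 A)) ?_
    have e1 : algebraMap 𝒪 A ((A0 * A1 - A1 * A0) fr.i0 fr.j0)
        = (A0.map (algebraMap 𝒪 A) * A1.map (algebraMap 𝒪 A)) fr.i0 fr.j0
          - (A1.map (algebraMap 𝒪 A) * A0.map (algebraMap 𝒪 A)) fr.i0 fr.j0 := by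
      simp only [Matrix.sub_apply, Matrix.mul_apply, Fin.sum_univ_two, map_sub, map_add, map_mul,
        Matrix.map_apply]
    rw [e1, Matrix.sub_apply]
    have := Ideal.sub_mem _
      (rigE_mul_sub_mem (maximalIdeal A) _ _ _ _ hA0 hA1 fr.i0 fr.j0)
      (rigE_mul_sub_mem (maximalIdeal A) _ _ _ _ hA1 hA0 fr.i0 fr.j0)
    convert this using 1
    ring
  obtain ⟨Q, hQdet, hQ1, h00, h10, hij⟩ := rigE_exists_normalizer (M fr.g0) (M fr.g1) fr.i0 fr.j0
    (algebraMap 𝒪 A fr.c) hN0 hN1 hM1 hu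
  have hQQ : Q⁻¹ * Q = 1 := Matrix.nonsing_inv_mul Q hQdet
  have hQQ' : Q * Q⁻¹ = 1 := Matrix.mul_nonsing_inv Q hQdet
  let M' : Gal →* Mat2 A :=
    { toFun := fun g => Q⁻¹ * M g * Q
      map_one' := by rw [map_one, Matrix.mul_one, hQQ]
      map_mul' := fun σ τ => by
        rw [map_mul]
        calc Q⁻¹ * (M σ * M τ) * Q = Q⁻¹ * M σ * 1 * M τ * Q := by simp [Matrix.mul_assoc]
          _ = Q⁻¹ * M σ * (Q * Q⁻¹) * M τ * Q := by rw [hQQ']
          _ = Q⁻¹ * M σ * Q * (Q⁻¹ * M τ * Q) := by simp [Matrix.mul_assoc] }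
  have hM' : ∀ g, M' g = Q⁻¹ * M g * Q := fun _ => rfl
  let P : (Mat2 A)ˣ := ⟨Q⁻¹, Q, hQQ, hQQ'⟩
  refine ⟨M', P, fun g => ?_, ⟨?_, ?_, ?_⟩, ?_⟩
  · show Q⁻¹ * M g = M' g * Q⁻¹
    rw [hM', Matrix.mul_assoc, hQQ', Matrix.mul_one]
  · rw [hM']; exact h00
  · rw [hM']; exact h10
  · rw [hM']; exact hij
  · intro g i j a ha
    have h1 := hl g i j a ha
    have h2 : M' g i j - M g i j ∈ maximalIdeal A := by
      have : M' g - M g = Q⁻¹ * (M g * (Q - 1) - (Q - 1) * M g) := by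
        have e3 : Q⁻¹ * (M g * (Q - 1) - (Q - 1) * M g)
            = Q⁻¹ * M g * Q - Q⁻¹ * M g - (Q⁻¹ * Q) * M g + Q⁻¹ * M g := by
          simp only [Matrix.mul_sub, Matrix.sub_mul, Matrix.mul_one, Matrix.one_mul,
            Matrix.mul_assoc]
          abel
        rw [e3, hQQ, Matrix.one_mul, hM']
        abel
      have e2 : M' g i j - M g i j = (M' g - M g) i j := rfl
      rw [e2, this]
      simp only [Matrix.mul_apply, Matrix.sub_apply]
      refine Ideal.sum_mem _ fun k _ => Ideal.mul_mem_left _ _ ?_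
      refine Ideal.sub_mem _ (Ideal.sum_mem _ fun b _ => Ideal.mul_mem_left _ _ ?_)
        (Ideal.sum_mem _ fun b _ => Ideal.mul_mem_right _ _ ?_)
      · exact hQ1 b j
      · exact hQ1 k b
    have : M' g i j - algebraMap 𝒪 A a = (M' g i j - M g i j) + (M g i j - algebraMap 𝒪 A a) := by
      ring
    rw [this]
    exact Ideal.add_mem _ h2 h1

end Fermat.Agent.S53
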