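/-
S53 work package N-a (N1): DONE (helper4235), no open goals left in this file.
The statement of `Frame.rigid_unique` is the frozen squad interface statement (unchanged).
Helper lemmas are prefixed `rigU_`.
-/
import Fermat.Agent.S53.Defs

set_option autoImplicit false

namespace Fermat.Agent.S53

open IsLocalRing GaloisRep

variable {𝒪 : Type} [CommRing 𝒪] [IsLocalRing 𝒪] {ρbar : ResidualGaloisRep (ResidueField 𝒪)}

/-- The residue of an entry of a lift of `fr.Mbar` is the image of the entry of `fr.Mbar`. -/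
theorem rigU_residue_entry (fr : Frame ρbar) {A : Type} [CommRing A] [IsLocalRing A]
    [Algebra 𝒪 A] [IsLocalHom (algebraMap 𝒪 A)] (M : Gal → Mat2 A) (hl : fr.IsLiftOf M)
    (g : Gal) (i j : Fin 2) :
    IsLocalRing.residue A (M g i j) =
      IsLocalRing.ResidueField.map (algebraMap 𝒪 A) (fr.Mbar g i j) := by
  obtain ⟨a, ha⟩ := IsLocalRing.residue_surjective (fr.Mbar g i j)
  have h := (IsLocalRing.residue_eq_zero_iff _).mpr (hl g i j a ha)
  rw [map_sub, sub_eq_zero] at h
  rw [← ha, IsLocalRing.ResidueField.map_residue, h]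

/-- The residue of an entry of a product of two lifts. -/
theorem rigU_residue_mul (fr : Frame ρbar) {A : Type} [CommRing A] [IsLocalRing A]
    [Algebra 𝒪 A] [IsLocalHom (algebraMap 𝒪 A)] (M M' : Gal → Mat2 A) (hl : fr.IsLiftOf M)
    (hl' : fr.IsLiftOf M') (g h : Gal) (i j : Fin 2) :
    IsLocalRing.residue A ((M g * M' h) i j) =
      IsLocalRing.ResidueField.map (algebraMap 𝒪 A) ((fr.Mbar g * fr.Mbar h) i j) := by
  simp only [Matrix.mul_apply, Fin.sum_univ_two, map_add, map_mul,
    rigU_residue_entry fr M hl, rigU_residue_entry fr M' hl']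

/-- N1 (uniqueness; any local ring).  Two rigid lifts of `fr.Mbar` that are conjugate are equal.
Proof sketch: with `C = M g0`, `C' = M' g0` (first columns `(0,1)`), `P e₁ = (p,q)` gives
`P = p + q C'`, hence `C = C'`; reducing `P * M g1 = M' g1 * P` mod `m` and using
`fr.hcomm` gives `q ∈ m`, `p` a unit; the `(i0,j0)` entry of
`p (N - N') = q (N' C - C N)` then forces `q = 0`. -/
theorem Frame.rigid_unique (fr : Frame ρbar) {A : Type} [CommRing A] [IsLocalRing A]
    [Algebra 𝒪 A] [IsLocalHom (algebraMap 𝒪 A)] (M M' : Gal →* Mat2 A)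
    (hM : fr.IsRigid M) (hM' : fr.IsRigid M') (hl : fr.IsLiftOf M) (hl' : fr.IsLiftOf M')
    (P : (Mat2 A)ˣ) (hP : ∀ g, (P : Mat2 A) * M g = M' g * P) : M = M' := by
  obtain ⟨h00, h10, hc⟩ := hM
  obtain ⟨h00', h10', hc'⟩ := hM'
  -- Step 1: `P = p + q C'`.
  have e0 := congrFun (congrFun (hP fr.g0) 0) 0
  have e1 := congrFun (congrFun (hP fr.g0) 1) 0
  simp only [Matrix.mul_apply, Fin.sum_univ_two, h00, h10, h00', h10', mul_zero, mul_one,
    zero_mul, one_mul, zero_add] at e0 e1
  have hPeq : (P : Mat2 A) = (P : Mat2 A) 0 0 • (1 : Mat2 A) + (P : Mat2 A) 1 0 • M' fr.g0 := by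
    ext i j
    fin_cases i <;> fin_cases j
    · simp [h00']
    · simp [e0, mul_comm]
    · simp [h10']
    · simp [e1, mul_comm]
  -- `P` commutes with `C'`, hence `C = C'`.
  have hcommP : M' fr.g0 * (P : Mat2 A) = (P : Mat2 A) * M' fr.g0 := by
    rw [hPeq]
    simp only [mul_add, add_mul, smul_mul_assoc, mul_smul_comm, one_mul, mul_one]
  have hC : M fr.g0 = M' fr.g0 := by
    have h := hP fr.g0
    rw [hcommP] at h
    exact (Units.mul_right_inj P).mp h
  -- Step 2: the `(i0, j0)` entry for `g1` forces `q = 0`.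
  have hD : IsUnit ((M' fr.g0 * M fr.g1) fr.i0 fr.j0 - (M' fr.g1 * M' fr.g0) fr.i0 fr.j0) := by
    rw [← IsLocalRing.residue_ne_zero_iff_isUnit, map_sub,
      rigU_residue_mul fr M' M hl' hl, rigU_residue_mul fr M' M' hl' hl', ← map_sub]
    intro h0
    have h1 := (IsLocalRing.ResidueField.map (algebraMap 𝒪 A)).injective
      (h0.trans (map_zero _).symm)
    exact fr.hcomm h1
  have hq : (P : Mat2 A) 1 0 = 0 := by
    have h := congrFun (congrFun (hP fr.g1) fr.i0) fr.j0
    rw [hPeq] at h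
    simp only [add_mul, mul_add, smul_mul_assoc, mul_smul_comm, one_mul, mul_one,
      Matrix.add_apply, Matrix.smul_apply, smul_eq_mul, hc, hc'] at h
    have h2 : (P : Mat2 A) 1 0 *
        ((M' fr.g0 * M fr.g1) fr.i0 fr.j0 - (M' fr.g1 * M' fr.g0) fr.i0 fr.j0) = 0 := by
      rw [mul_sub, sub_eq_zero]
      exact add_left_cancel h
    exact (hD.mul_left_eq_zero).mp h2
  -- Step 3: `P` is scalar, hence central.
  have hPs : (P : Mat2 A) = (P : Mat2 A) 0 0 • (1 : Mat2 A) := by
    rw [hq, zero_smul, add_zero] at hPeq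
    exact hPeq
  refine MonoidHom.ext fun g => ?_
  have h := hP g
  have hcomm' : M' g * (P : Mat2 A) = (P : Mat2 A) * M' g := by
    rw [hPs]
    simp only [smul_mul_assoc, mul_smul_comm, one_mul, mul_one]
  rw [hcomm'] at h
  exact (Units.mul_right_inj P).mp h

end Fermat.Agent.S53
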