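/- S53 work package N (rigid normal form): umbrella file. -/
import Fermat.Agent.S53.RigidUnique
import Fermat.Agent.S53.RigidExists
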