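/-
S53, work package Z: from a universal rigid lift to `DeformationRingData`.
STATEMENT IS FROZEN (interface).
-/
import Fermat.Agent.S53.Defs
import Fermat.Agent.S53.ArtTest
import Fermat.Agent.S53.Dict
import Fermat.Agent.S53.NormalForm

set_option autoImplicit false
set_option linter.unusedSectionVars false

namespace Fermat.Agent.S53

open IsLocalRing GaloisRep

section General

/-- Hausdorffness: two elements that agree modulo every `m ^ (n+1)` are equal. -/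
theorem asm_eq_of_forall_mk_eq {A : Type} [CommRing A] [IsLocalRing A]
    [IsAdicComplete (maximalIdeal A) A] {x y : A}
    (h : ∀ n : ℕ, Ideal.Quotient.mk (maximalIdeal A ^ (n + 1)) x =
      Ideal.Quotient.mk (maximalIdeal A ^ (n + 1)) y) : x = y := by
  rw [← sub_eq_zero]
  refine IsHausdorff.haus (I := maximalIdeal A) inferInstance (x - y) fun n => ?_
  have hmem : x - y ∈ maximalIdeal A ^ (n + 1) := Ideal.Quotient.eq.mp (h n)
  have hle : maximalIdeal A ^ (n + 1) ≤ maximalIdeal A ^ n := Ideal.pow_le_pow_right n.le_succ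
  rw [SModEq.zero, smul_eq_mul, Ideal.mul_top]
  exact hle hmem

/-- An element whose class lies in the maximal ideal of `A ⧸ m ^ (n+1)` lies in `m`. -/
theorem asm_mem_maximalIdeal_of_mk_mem {A : Type} [CommRing A] [IsLocalRing A] (n : ℕ) {x : A}
    (h : Ideal.Quotient.mk (maximalIdeal A ^ (n + 1)) x ∈
      maximalIdeal (A ⧸ maximalIdeal A ^ (n + 1))) : x ∈ maximalIdeal A := by
  rw [maximalIdeal_quot_pow, Ideal.mem_map_iff_of_surjective _ Ideal.Quotient.mk_surjective] at h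
  obtain ⟨y, hy, hxy⟩ := h
  have h1 : y - x ∈ maximalIdeal A ^ (n + 1) := Ideal.Quotient.eq.mp hxy
  have h2 : y - x ∈ maximalIdeal A := Ideal.pow_le_self (Nat.succ_ne_zero n) h1
  have h3 : x = y - (y - x) := by ring
  rw [h3]
  exact Ideal.sub_mem _ hy h2

/-- The class of an element of `m` lies in the maximal ideal of `A ⧸ m ^ (n+1)`. -/
theorem asm_mk_mem_maximalIdeal {A : Type} [CommRing A] [IsLocalRing A] (n : ℕ) {x : A}
    (h : x ∈ maximalIdeal A) :
    Ideal.Quotient.mk (maximalIdeal A ^ (n + 1)) x ∈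
      maximalIdeal (A ⧸ maximalIdeal A ^ (n + 1)) := by
  rw [maximalIdeal_quot_pow]
  exact Ideal.mem_map_of_mem _ h

/-- An element whose class lies in the `(n+1)`-st power of the maximal ideal of `A ⧸ m ^ (n+1)`
lies in `m ^ (n+1)`. -/
theorem asm_mem_pow_of_mk_mem_pow {A : Type} [CommRing A] [IsLocalRing A] (n : ℕ) {x : A}
    (h : Ideal.Quotient.mk (maximalIdeal A ^ (n + 1)) x ∈
      maximalIdeal (A ⧸ maximalIdeal A ^ (n + 1)) ^ (n + 1)) : x ∈ maximalIdeal A ^ (n + 1) := by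
  rw [maximalIdeal_quot_pow_pow, Ideal.mem_bot] at h
  exact Ideal.Quotient.eq_zero_iff_mem.mp h

theorem asm_isEquiv_symm {A : Type} [CommRing A] [IsLocalRing A] {ρ₁ ρ₂ : GaloisRepAdic A}
    (h : ρ₁.IsEquiv ρ₂) : ρ₂.IsEquiv ρ₁ := by
  obtain ⟨e⟩ := h
  exact ⟨e.symm⟩

theorem asm_isEquiv_trans {A : Type} [CommRing A] [IsLocalRing A] {ρ₁ ρ₂ ρ₃ : GaloisRepAdic A}
    (h : ρ₁.IsEquiv ρ₂) (h' : ρ₂.IsEquiv ρ₃) : ρ₁.IsEquiv ρ₃ := by
  obtain ⟨e⟩ := h
  obtain ⟨e'⟩ := h'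
  exact ⟨e.trans e'⟩

theorem asm_isEquiv_baseChangeAlong {A B : Type} [CommRing A] [IsLocalRing A] [CommRing B]
    [IsLocalRing B] (φ : A →+* B) (hφ : IsLocalHom φ) {ρ₁ ρ₂ : GaloisRepAdic A}
    (h : ρ₁.IsEquiv ρ₂) : (ρ₁.baseChangeAlong φ hφ).IsEquiv (ρ₂.baseChangeAlong φ hφ) := by
  obtain ⟨e⟩ := h
  exact ⟨e.baseChangeAlong φ hφ⟩

end General

section Univ

variable {𝒪 : Type} [CommRing 𝒪] [IsDomain 𝒪] [IsDiscreteValuationRing 𝒪]
  [IsAdicComplete (maximalIdeal 𝒪) 𝒪] [Finite (ResidueField 𝒪)]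
  {ρbar : ResidualGaloisRep (ResidueField 𝒪)} (fr : Frame ρbar)
  (𝒟 : ∀ ⦃A : Type⦄ [CommRing A] [IsLocalRing A] [Algebra 𝒪 A], GaloisRepAdic A → Prop)

/-- The level-`n` truncation of the universal family is an admissible lift. -/
theorem asm_level (U : (fr.liftProblem 𝒟).UnivLift) (n : ℕ) :
    ∃ (M : Gal →* Mat2 (U.R ⧸ maximalIdeal U.R ^ (n + 1)))
      (hM : IsCtsMat (U.R ⧸ maximalIdeal U.R ^ (n + 1)) M),
      (∀ g i j, M g i j = Ideal.Quotient.mk (maximalIdeal U.R ^ (n + 1)) (U.u (g, i, j))) ∧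
        fr.IsRigid M ∧ fr.IsLiftOf M ∧ 𝒟 (ofMat M hM) := by
  have hT := isArtinianTestAlgebra_quot_pow (𝒪 := 𝒪) U.R U.residue_surjective n
  exact U.isLift hT (Ideal.Quotient.mkₐ 𝒪 (maximalIdeal U.R ^ (n + 1)))

/-- The universal matrix representation. -/
noncomputable def asm_MR (U : (fr.liftProblem 𝒟).UnivLift) : Gal →* Mat2 U.R where
  toFun g := Matrix.of fun i j => U.u (g, i, j)
  map_one' := by
    ext i j
    apply asm_eq_of_forall_mk_eq
    intro n
    obtain ⟨M, hM, hent, -⟩ := asm_level fr 𝒟 U n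
    rw [Matrix.of_apply, ← hent, map_one, Matrix.one_apply, Matrix.one_apply]
    split_ifs <;> simp
  map_mul' g h := by
    ext i j
    apply asm_eq_of_forall_mk_eq
    intro n
    obtain ⟨M, hM, hent, -⟩ := asm_level fr 𝒟 U n
    rw [Matrix.of_apply, ← hent, map_mul, Matrix.mul_apply, Matrix.mul_apply, map_sum]
    refine Finset.sum_congr rfl fun k _ => ?_
    rw [map_mul, Matrix.of_apply, Matrix.of_apply, hent, hent]

theorem asm_MR_apply (U : (fr.liftProblem 𝒟).UnivLift) (g : Gal) (i j : Fin 2) :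
    asm_MR fr 𝒟 U g i j = U.u (g, i, j) := rfl

/-- The reduction of the universal matrix representation modulo `m ^ (n+1)` is the level-`n`
matrix representation. -/
theorem asm_mapMat_mk (U : (fr.liftProblem 𝒟).UnivLift) (n : ℕ)
    (M : Gal →* Mat2 (U.R ⧸ maximalIdeal U.R ^ (n + 1)))
    (hent : ∀ g i j, M g i j = Ideal.Quotient.mk (maximalIdeal U.R ^ (n + 1)) (U.u (g, i, j))) :
    mapMat (Ideal.Quotient.mk (maximalIdeal U.R ^ (n + 1))) (asm_MR fr 𝒟 U) = M := by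
  ext g i j
  rw [mapMat_apply, asm_MR_apply, hent]

theorem asm_MR_cts (U : (fr.liftProblem 𝒟).UnivLift) : IsCtsMat U.R (asm_MR fr 𝒟 U) := by
  intro n
  cases n with
  | zero =>
    refine ⟨⊥, inferInstance, fun σ _ i j => ?_⟩
    rw [pow_zero, Ideal.one_eq_top]
    exact Submodule.mem_top
  | succ n =>
    obtain ⟨M, hM, hent, -⟩ := asm_level fr 𝒟 U n
    obtain ⟨L, hL, h⟩ := hM (n + 1)
    refine ⟨L, hL, fun σ hσ i j => ?_⟩
    apply asm_mem_pow_of_mk_mem_pow n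
    have h1 := h σ hσ i j
    have h2 : Ideal.Quotient.mk (maximalIdeal U.R ^ (n + 1)) ((asm_MR fr 𝒟 U σ - 1) i j) =
        (M σ - 1) i j := by
      rw [Matrix.sub_apply, Matrix.sub_apply, map_sub, asm_MR_apply, hent, Matrix.one_apply,
        Matrix.one_apply]
      split_ifs <;> simp
    rw [h2]
    exact h1

theorem asm_MR_rigid (U : (fr.liftProblem 𝒟).UnivLift) : fr.IsRigid (asm_MR fr 𝒟 U) := by
  refine ⟨?_, ?_, ?_⟩
  · apply asm_eq_of_forall_mk_eq
    intro n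
    obtain ⟨M, hM, hent, hrig, -⟩ := asm_level fr 𝒟 U n
    rw [asm_MR_apply, ← hent, hrig.1, map_zero]
  · apply asm_eq_of_forall_mk_eq
    intro n
    obtain ⟨M, hM, hent, hrig, -⟩ := asm_level fr 𝒟 U n
    rw [asm_MR_apply, ← hent, hrig.2.1, map_one]
  · apply asm_eq_of_forall_mk_eq
    intro n
    obtain ⟨M, hM, hent, hrig, -⟩ := asm_level fr 𝒟 U n
    rw [asm_MR_apply, ← hent, hrig.2.2]
    rfl

theorem asm_MR_lift (U : (fr.liftProblem 𝒟).UnivLift) : fr.IsLiftOf (asm_MR fr 𝒟 U) := by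
  intro g i j a ha
  obtain ⟨M, hM, hent, hrig, hlift, -⟩ := asm_level fr 𝒟 U 0
  apply asm_mem_maximalIdeal_of_mk_mem 0
  have h1 := hlift g i j a ha
  rw [hent] at h1
  rw [asm_MR_apply, map_sub]
  exact h1

theorem asm_MR_D (h𝒟 : GaloisRep.IsDeformationCondition 𝒪 𝒟) (U : (fr.liftProblem 𝒟).UnivLift) :
    𝒟 (ofMat (asm_MR fr 𝒟 U) (asm_MR_cts fr 𝒟 U)) := by
  rw [h𝒟.iff_forall_surjective (A := U.R) inferInstance U.residue_surjective]
  intro B _ _ _ hB q hq _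
  obtain ⟨M, hM, hent, hrig, hlift, hD⟩ := U.isLift hB q
  have hMeq : M = mapMat (q : U.R →+* B) (asm_MR fr 𝒟 U) := by
    ext g i j
    exact hent g i j
  subst hMeq
  exact h𝒟.of_isEquiv hB (asm_isEquiv_symm (ofMat_baseChangeAlong_isEquiv (q : U.R →+* B) hq
    (asm_MR fr 𝒟 U) (asm_MR_cts fr 𝒟 U) hM)) hD

section Target

variable {A : Type} [CommRing A] [IsLocalRing A] [IsNoetherianRing A]
  [IsAdicComplete (maximalIdeal A) A] [Algebra 𝒪 A] [IsLocalHom (algebraMap 𝒪 A)]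

/-- Every deformation of `ρbar` over a complete local ring is equivalent to `ofMat` of a rigid
lift. -/
theorem asm_exists_rigid (ρA : GaloisRepAdic A)
    (hr : ρA.residual.IsEquiv
      (ρbar.baseChangeAlong (IsLocalRing.ResidueField.map (algebraMap 𝒪 A)))) :
    ∃ (M' : Gal →* Mat2 A) (hM' : IsCtsMat A M'),
      ρA.IsEquiv (ofMat M' hM') ∧ fr.IsRigid M' ∧ fr.IsLiftOf M' := by
  obtain ⟨M₀, hM₀, he, hl⟩ := exists_ofMat_isEquiv fr ρA hr
  obtain ⟨M', P, hP, hrig, hl'⟩ := fr.exists_rigid_conj M₀ hl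
  have hM' := hM₀.of_conj P hP
  exact ⟨M', hM', asm_isEquiv_trans he (ofMat_isEquiv_of_conj M₀ M' hM₀ hM' P hP), hrig, hl'⟩

/-- The truncations of a rigid `𝒟`-lift over a complete noetherian local ring are admissible
lifts. -/
theorem asm_level_F (h𝒟 : GaloisRep.IsDeformationCondition 𝒪 𝒟)
    (hres : Function.Surjective (IsLocalRing.residue A ∘ algebraMap 𝒪 A))
    (ρA : GaloisRepAdic A) (hD : 𝒟 ρA) (M' : Gal →* Mat2 A) (hM' : IsCtsMat A M')
    (he : ρA.IsEquiv (ofMat M' hM')) (hrig : fr.IsRigid M') (hl : fr.IsLiftOf M') (n : ℕ) :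
    (fr.liftProblem 𝒟).F (fun x : Gal × Fin 2 × Fin 2 =>
      Ideal.Quotient.mk (maximalIdeal A ^ (n + 1)) (M' x.1 x.2.1 x.2.2)) := by
  have hT := isArtinianTestAlgebra_quot_pow (𝒪 := 𝒪) A hres n
  set q : A →ₐ[𝒪] A ⧸ maximalIdeal A ^ (n + 1) :=
    Ideal.Quotient.mkₐ 𝒪 (maximalIdeal A ^ (n + 1)) with hq_def
  have hq : IsLocalHom (q : A →+* A ⧸ maximalIdeal A ^ (n + 1)) :=
    isLocalHom_of_residue_surjective hT.residue_surjective q
  have hcts := hM'.mapMat (q : A →+* A ⧸ maximalIdeal A ^ (n + 1)) hq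
  refine ⟨mapMat (q : A →+* A ⧸ maximalIdeal A ^ (n + 1)) M', hcts, fun g i j => rfl,
    ⟨?_, ?_, ?_⟩, ?_, ?_⟩
  · rw [mapMat_apply, hrig.1, map_zero]
  · rw [mapMat_apply, hrig.2.1, map_one]
  · rw [mapMat_apply, hrig.2.2]
    exact q.commutes _
  · intro g i j a ha
    rw [mapMat_apply]
    have h1 := hl g i j a ha
    have h2 : (q : A →+* A ⧸ maximalIdeal A ^ (n + 1)) (M' g i j) -
        algebraMap 𝒪 (A ⧸ maximalIdeal A ^ (n + 1)) a =
        Ideal.Quotient.mk (maximalIdeal A ^ (n + 1)) (M' g i j - algebraMap 𝒪 A a) := by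
      rw [map_sub]
      rfl
    rw [h2]
    exact asm_mk_mem_maximalIdeal n h1
  · have h1 : 𝒟 (ρA.baseChangeAlong (q : A →+* A ⧸ maximalIdeal A ^ (n + 1)) hq) :=
      (h𝒟.iff_forall_surjective (A := A) inferInstance hres ρA).mp hD hT q hq
        (Ideal.Quotient.mkₐ_surjective 𝒪 _)
    have h2 := asm_isEquiv_baseChangeAlong (q : A →+* A ⧸ maximalIdeal A ^ (n + 1)) hq he
    have h3 := ofMat_baseChangeAlong_isEquiv (q : A →+* A ⧸ maximalIdeal A ^ (n + 1)) hq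
      M' hM' hcts
    exact h𝒟.of_isEquiv hT (asm_isEquiv_trans h2 h3) h1

/-- Uniqueness: an `𝒪`-algebra map out of the universal ring is determined by the image of the
universal matrix representation, provided that image is a rigid `𝒟`-lift. -/
theorem asm_hom_unique (h𝒟 : GaloisRep.IsDeformationCondition 𝒪 𝒟)
    (U : (fr.liftProblem 𝒟).UnivLift)
    (hres : Function.Surjective (IsLocalRing.residue A ∘ algebraMap 𝒪 A))
    (ρA : GaloisRepAdic A) (hD : 𝒟 ρA) (M' : Gal →* Mat2 A) (hM' : IsCtsMat A M')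
    (he : ρA.IsEquiv (ofMat M' hM')) (hrig : fr.IsRigid M') (hl : fr.IsLiftOf M')
    (φ φ' : U.R →ₐ[𝒪] A) (h : mapMat (φ : U.R →+* A) (asm_MR fr 𝒟 U) = M')
    (h' : mapMat (φ' : U.R →+* A) (asm_MR fr 𝒟 U) = M') : φ = φ' := by
  apply IsAdicComplete.algHom_ext (maximalIdeal A)
  intro n
  cases n with
  | zero =>
    have hsub : Subsingleton (A ⧸ maximalIdeal A ^ 0) :=
      Ideal.Quotient.subsingleton_iff.mpr (by simp)
    exact AlgHom.ext fun x => Subsingleton.elim _ _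
  | succ n =>
    have hT := isArtinianTestAlgebra_quot_pow (𝒪 := 𝒪) A hres n
    have hF := asm_level_F fr 𝒟 h𝒟 hres ρA hD M' hM' he hrig hl n
    refine (U.existsUnique hT _ hF).unique ?_ ?_
    · rintro ⟨g, i, j⟩
      have := congrArg (fun N : Gal →* Mat2 A => N g i j) h
      simp only [mapMat_apply, asm_MR_apply] at this
      change Ideal.Quotient.mk (maximalIdeal A ^ (n + 1)) (φ (U.u (g, i, j))) = _
      exact congrArg _ this
    · rintro ⟨g, i, j⟩
      have := congrArg (fun N : Gal →* Mat2 A => N g i j) h'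
      simp only [mapMat_apply, asm_MR_apply] at this
      change Ideal.Quotient.mk (maximalIdeal A ^ (n + 1)) (φ' (U.u (g, i, j))) = _
      exact congrArg _ this

/-- Existence: a rigid `𝒟`-lift over a complete noetherian local ring is the image of the
universal matrix representation under an `𝒪`-algebra map. -/
theorem asm_exists_hom (h𝒟 : GaloisRep.IsDeformationCondition 𝒪 𝒟)
    (U : (fr.liftProblem 𝒟).UnivLift)
    (hres : Function.Surjective (IsLocalRing.residue A ∘ algebraMap 𝒪 A))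
    (ρA : GaloisRepAdic A) (hD : 𝒟 ρA) (M' : Gal →* Mat2 A) (hM' : IsCtsMat A M')
    (he : ρA.IsEquiv (ofMat M' hM')) (hrig : fr.IsRigid M') (hl : fr.IsLiftOf M') :
    ∃ φ : U.R →ₐ[𝒪] A, mapMat (φ : U.R →+* A) (asm_MR fr 𝒟 U) = M' := by
  have hT := fun n : ℕ => isArtinianTestAlgebra_quot_pow (𝒪 := 𝒪) A hres n
  have hF := fun n : ℕ => asm_level_F fr 𝒟 h𝒟 hres ρA hD M' hM' he hrig hl n
  have hex := fun n : ℕ => (U.existsUnique (hT n) _ (hF n)).exists
  choose φn hφn using hex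
  -- compatibility of the level maps
  have hcompat : ∀ {m n : ℕ} (hle : m ≤ n),
      (Ideal.Quotient.factorₐ 𝒪 (Ideal.pow_le_pow_right (I := maximalIdeal A)
        (Nat.succ_le_succ hle))).comp (φn n) = φn m := by
    intro m n hle
    refine (U.existsUnique (hT m) _ (hF m)).unique ?_ (hφn m)
    intro x
    rw [AlgHom.comp_apply, hφn n x, Ideal.Quotient.factorₐ_apply_mk]
  let f : (n : ℕ) → U.R →ₐ[𝒪] A ⧸ maximalIdeal A ^ n := fun n =>
    (Ideal.Quotient.factorₐ 𝒪 (Ideal.pow_le_pow_right (I := maximalIdeal A) n.le_succ)).comp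
      (φn n)
  have hf : ∀ {m n : ℕ} (hle : m ≤ n),
      (Ideal.Quotient.factorₐ 𝒪 (Ideal.pow_le_pow_right (I := maximalIdeal A) hle)).comp (f n) =
        f m := by
    intro m n hle
    refine AlgHom.ext fun x => ?_
    have h1 := congrArg (fun ψ : U.R →ₐ[𝒪] A ⧸ maximalIdeal A ^ (m + 1) => ψ x) (hcompat hle)
    simp only [AlgHom.comp_apply] at h1
    simp only [f, AlgHom.comp_apply]
    rw [← h1]
    obtain ⟨y, hy⟩ := Ideal.Quotient.mk_surjective (φn n x)
    rw [← hy]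
    simp only [Ideal.Quotient.factorₐ_apply_mk]
  refine ⟨IsAdicComplete.liftAlgHom (maximalIdeal A) f hf, ?_⟩
  ext g i j
  rw [mapMat_apply, asm_MR_apply]
  apply asm_eq_of_forall_mk_eq
  intro n
  have h1 := IsAdicComplete.mk_liftAlgHom (maximalIdeal A) f hf (n + 1) (U.u (g, i, j))
  have h2 : f (n + 1) (U.u (g, i, j)) =
      Ideal.Quotient.mk (maximalIdeal A ^ (n + 1)) (M' g i j) := by
    simp only [f, AlgHom.comp_apply]
    rw [hφn (n + 1) (g, i, j), Ideal.Quotient.factorₐ_apply_mk]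
  rw [← h2, ← h1]
  rfl

/-- The universal property of the universal matrix representation. -/
theorem asm_universal (h𝒟 : GaloisRep.IsDeformationCondition 𝒪 𝒟)
    (U : (fr.liftProblem 𝒟).UnivLift)
    (hres : Function.Surjective (IsLocalRing.residue A ∘ algebraMap 𝒪 A))
    (ρA : GaloisRepAdic A) (hD : 𝒟 ρA)
    (hr : ρA.residual.IsEquiv
      (ρbar.baseChangeAlong (IsLocalRing.ResidueField.map (algebraMap 𝒪 A)))) :
    ∃! φ : U.R →ₐ[𝒪] A, ∃ hφ : IsLocalHom (φ : U.R →+* A),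
      ((ofMat (asm_MR fr 𝒟 U) (asm_MR_cts fr 𝒟 U)).baseChangeAlong
        (φ : U.R →+* A) hφ).IsEquiv ρA := by
  obtain ⟨M', hM', he, hrig, hl⟩ := asm_exists_rigid fr ρA hr
  obtain ⟨φ, hφ⟩ := asm_exists_hom fr 𝒟 h𝒟 U hres ρA hD M' hM' he hrig hl
  have hloc : ∀ ψ : U.R →ₐ[𝒪] A, IsLocalHom (ψ : U.R →+* A) := fun ψ =>
    isLocalHom_of_residue_surjective hres ψ
  refine ⟨φ, ⟨hloc φ, ?_⟩, ?_⟩
  · have hcts : IsCtsMat A (mapMat (φ : U.R →+* A) (asm_MR fr 𝒟 U)) := by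
      rw [hφ]; exact hM'
    have h1 := ofMat_baseChangeAlong_isEquiv (φ : U.R →+* A) (hloc φ) (asm_MR fr 𝒟 U)
      (asm_MR_cts fr 𝒟 U) hcts
    have h2 : (ofMat (mapMat (φ : U.R →+* A) (asm_MR fr 𝒟 U)) hcts).IsEquiv (ofMat M' hM') := by
      subst hφ
      exact ⟨GaloisRepAdic.Equiv.refl _⟩
    exact asm_isEquiv_trans h1 (asm_isEquiv_trans h2 (asm_isEquiv_symm he))
  · rintro φ' ⟨hφ', he'⟩
    have hcts' : IsCtsMat A (mapMat (φ' : U.R →+* A) (asm_MR fr 𝒟 U)) :=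
      (asm_MR_cts fr 𝒟 U).mapMat (φ' : U.R →+* A) hφ'
    have h1 := ofMat_baseChangeAlong_isEquiv (φ' : U.R →+* A) hφ' (asm_MR fr 𝒟 U)
      (asm_MR_cts fr 𝒟 U) hcts'
    have e1 : (ofMat (mapMat (φ' : U.R →+* A) (asm_MR fr 𝒟 U)) hcts').IsEquiv (ofMat M' hM') :=
      asm_isEquiv_trans (asm_isEquiv_symm h1) (asm_isEquiv_trans he' he)
    obtain ⟨P, hP⟩ := exists_conj_of_ofMat_isEquiv _ _ hcts' hM' e1
    have hrigR := asm_MR_rigid fr 𝒟 U
    have hrig' : fr.IsRigid (mapMat (φ' : U.R →+* A) (asm_MR fr 𝒟 U)) := by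
      refine ⟨?_, ?_, ?_⟩
      · rw [mapMat_apply, hrigR.1, map_zero]
      · rw [mapMat_apply, hrigR.2.1, map_one]
      · rw [mapMat_apply, hrigR.2.2]
        exact φ'.commutes _
    have hl' : fr.IsLiftOf (mapMat (φ' : U.R →+* A) (asm_MR fr 𝒟 U)) := by
      intro g i j a ha
      rw [mapMat_apply]
      have h0 := asm_MR_lift fr 𝒟 U g i j a ha
      have h2 : (φ' : U.R →+* A) (asm_MR fr 𝒟 U g i j) - algebraMap 𝒪 A a =
          (φ' : U.R →+* A) (asm_MR fr 𝒟 U g i j - algebraMap 𝒪 U.R a) := by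
        rw [map_sub]
        congr 1
        exact (φ'.commutes a).symm
      rw [h2]
      have := hφ'
      exact map_nonunit (φ' : U.R →+* A) _ h0
    have hEq := fr.rigid_unique _ M' hrig' hrig hl' hl P hP
    exact asm_hom_unique fr 𝒟 h𝒟 U hres ρA hD M' hM' he hrig hl φ' φ hEq hφ

end Target

end Univ

/-- Z. A universal rigid `𝒟`-lift gives a universal deformation ring. -/
theorem deformationRingData_of_univLift {𝒪 : Type} [CommRing 𝒪] [IsDomain 𝒪]
    [IsDiscreteValuationRing 𝒪] [IsAdicComplete (maximalIdeal 𝒪) 𝒪]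
    [Finite (ResidueField 𝒪)] {ρbar : ResidualGaloisRep (ResidueField 𝒪)} (fr : Frame ρbar)
    (𝒟 : ∀ ⦃A : Type⦄ [CommRing A] [IsLocalRing A] [Algebra 𝒪 A], GaloisRepAdic A → Prop)
    (habs : ρbar.IsAbsolutelyIrreducible)
    (h𝒟 : GaloisRep.IsDeformationCondition 𝒪 𝒟)
    (U : (fr.liftProblem 𝒟).UnivLift) :
    Nonempty (GaloisRep.DeformationRingData 𝒪 ρbar 𝒟) := by
  exact ⟨{
    R := U.R
    residue_surjective := U.residue_surjective
    absIrr := habs
    ρ := ofMat (asm_MR fr 𝒟 U) (asm_MR_cts fr 𝒟 U)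
    isOfType := asm_MR_D fr 𝒟 h𝒟 U
    residual_isEquiv := ofMat_residual_isEquiv fr (asm_MR fr 𝒟 U) (asm_MR_cts fr 𝒟 U)
      (asm_MR_lift fr 𝒟 U)
    universal := fun A _ _ _ _ _ _ hres ρA hD hr =>
      asm_universal fr 𝒟 h𝒟 U hres ρA hD hr }⟩

end Fermat.Agent.S53
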