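/-
S53 work package X-c (X4 residue, X5 base point).  STATEMENTS ARE FROZEN (squad interface): do not change them.
Replace each `sorry` by a proof.  Helper lemmas: add them in THIS file, inside
`namespace Fermat.Agent.S53`, with names prefixed `axBase_` (fresh names).
Available (statements, maybe still `sorry`): ArtTest*.lean, Dict*.lean, Rigid*.lean.
-/
import Fermat.Agent.S53.Defs
import Fermat.Agent.S53.ArtTest
import Fermat.Agent.S53.Dict
import Fermat.Agent.S53.NormalForm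

set_option autoImplicit false

namespace Fermat.Agent.S53

open IsLocalRing GaloisRep

variable {𝒪 : Type} [CommRing 𝒪] [IsLocalRing 𝒪] {ρbar : ResidualGaloisRep (ResidueField 𝒪)}
  (fr : Frame ρbar)
  (𝒟 : ∀ ⦃A : Type⦄ [CommRing A] [IsLocalRing A] [Algebra 𝒪 A], GaloisRepAdic A → Prop)

/-- X4 (residue). -/
theorem Frame.liftProblem_residue :
    ∀ ⦃A : Type⦄ [CommRing A] [IsLocalRing A] [Algebra 𝒪 A],
      IsArtinianTestAlgebra 𝒪 A → ∀ ⦃r : Gal × Fin 2 × Fin 2 → A⦄, (fr.liftProblem 𝒟).F r →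
        ∀ (x : Gal × Fin 2 × Fin 2) (a : 𝒪),
          IsLocalRing.residue 𝒪 a = (fr.liftProblem 𝒟).rbar x →
          r x - algebraMap 𝒪 A a ∈ maximalIdeal A := by
  intro A _ _ _ _ r hr x a ha
  obtain ⟨M, _, hMr, _, hl, _⟩ := hr
  obtain ⟨g, i, j⟩ := x
  rw [← hMr g i j]
  exact hl g i j a ha

/-- Entries of the residual matrix representation of a frame. -/
theorem axBase_Mbar_apply (g : Gal) :
    fr.Mbar g = LinearMap.toMatrix fr.b fr.b (ρbar.ρ g) := rfl

/-- X5 (base point).  Uses `hbar`, D8, D9, T1 and `h𝒟.of_isEquiv`. -/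
theorem Frame.liftProblem_base (h𝒟 : GaloisRep.IsDeformationCondition 𝒪 𝒟)
    (hbar : 𝒟 (GaloisRepAdic.ofResidualGaloisRep ρbar)) :
    (fr.liftProblem 𝒟).F (fr.liftProblem 𝒟).rbar := by
  refine ⟨fr.Mbar, fr.isCtsMat_Mbar, fun g i j => rfl, ⟨?_, ?_, ?_⟩, ?_, ?_⟩
  · rw [axBase_Mbar_apply]; exact fr.h00
  · rw [axBase_Mbar_apply]; exact fr.h10
  · rw [axBase_Mbar_apply, IsLocalRing.ResidueField.algebraMap_eq]; exact fr.hc.symm
  · intro g i j a ha
    rw [IsLocalRing.ResidueField.algebraMap_eq, ha, sub_self]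
    exact Ideal.zero_mem _
  · exact h𝒟.of_isEquiv isArtinianTestAlgebra_residueField fr.ofResidual_isEquiv_ofMat hbar

end Fermat.Agent.S53
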