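/-
S53 work package X-b (X3 fibre products).  STATEMENTS ARE FROZEN (squad interface).
Complete proof (helper5675).  Helper lemmas are prefixed `axFibre_`.
Uses T6, T7 (ArtTestC) and D2 (DictBC).
-/
import Fermat.Agent.S53.Defs
import Fermat.Agent.S53.ArtTest
import Fermat.Agent.S53.Dict
import Fermat.Agent.S53.NormalForm

set_option autoImplicit false

namespace Fermat.Agent.S53

open IsLocalRing GaloisRep

variable {𝒪 : Type} [CommRing 𝒪] [IsLocalRing 𝒪] {ρbar : ResidualGaloisRep (ResidueField 𝒪)}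
  (fr : Frame ρbar)
  (𝒟 : ∀ ⦃A : Type⦄ [CommRing A] [IsLocalRing A] [Algebra 𝒪 A], GaloisRepAdic A → Prop)

/-- A continuous matrix representation over a local ring with nilpotent maximal ideal is trivial
on the absolute Galois group of a finite extension. -/
theorem axFibre_exists_level {A : Type} [CommRing A] [IsLocalRing A] {M : Gal →* Mat2 A}
    (hM : IsCtsMat A M) (hnil : ∃ n : ℕ, maximalIdeal A ^ n = ⊥) :
    ∃ L : IntermediateField ℚ (AlgebraicClosure ℚ), FiniteDimensional ℚ L ∧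
      ∀ σ : Gal, (∀ x ∈ L, σ x = x) → M σ = 1 := by
  obtain ⟨n, hn⟩ := hnil
  obtain ⟨L, hL, h⟩ := hM n
  refine ⟨L, hL, fun σ hσ => ?_⟩
  ext i j
  have h1 := h σ hσ i j
  rw [hn, Ideal.mem_bot, Matrix.sub_apply, sub_eq_zero] at h1
  exact h1

omit [IsLocalRing 𝒪] in
/-- Transport of the condition `𝒟` along an equality of matrix representations. -/
theorem axFibre_cast {𝒪 : Type} [CommRing 𝒪]
    (𝒟 : ∀ ⦃A : Type⦄ [CommRing A] [IsLocalRing A] [Algebra 𝒪 A], GaloisRepAdic A → Prop)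
    {A : Type} [CommRing A] [IsLocalRing A] [Algebra 𝒪 A]
    {M M' : Gal →* Mat2 A} (h : M = M') (hM : IsCtsMat A M) (hM' : IsCtsMat A M')
    (hD : 𝒟 (ofMat M hM)) : 𝒟 (ofMat M' hM') := by
  subst h; exact hD

/-- X3 (fibre products).  Uses `h𝒟.of_fibreProduct`, `h𝒟.of_isEquiv`, D2; the matrix
representation over `Q` is a monoid hom because `(pA, pB)` is injective; continuity: take the
compositum of the two finite levels and use nilpotency of the maximal ideals (T7). -/
theorem Frame.liftProblem_fibre (h𝒟 : GaloisRep.IsDeformationCondition 𝒪 𝒟) :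
    ∀ ⦃A B C Q : Type⦄ [CommRing A] [IsLocalRing A] [Algebra 𝒪 A]
      [CommRing B] [IsLocalRing B] [Algebra 𝒪 B] [CommRing C] [IsLocalRing C] [Algebra 𝒪 C]
      [CommRing Q] [IsLocalRing Q] [Algebra 𝒪 Q],
      IsArtinianTestAlgebra 𝒪 A → IsArtinianTestAlgebra 𝒪 B → IsArtinianTestAlgebra 𝒪 C →
      IsArtinianTestAlgebra 𝒪 Q →
      ∀ (f : A →ₐ[𝒪] C) (g : B →ₐ[𝒪] C) (pA : Q →ₐ[𝒪] A) (pB : Q →ₐ[𝒪] B),
        f.comp pA = g.comp pB →
        Function.Injective (fun x => (pA x, pB x)) →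
        (∀ a b, f a = g b → ∃ x, pA x = a ∧ pB x = b) →
        ∀ ⦃r : Gal × Fin 2 × Fin 2 → Q⦄, (fr.liftProblem 𝒟).F (fun x => pA (r x)) →
          (fr.liftProblem 𝒟).F (fun x => pB (r x)) → (fr.liftProblem 𝒟).F r := by
  intro A B C Q _ _ _ _ _ _ _ _ _ _ _ _ hA hB hC hQ f g pA pB hcomp hinj hsurj r hrA hrB
  obtain ⟨MA, hMA, hMAr, hrigA, hliftA, hDA⟩ := hrA
  obtain ⟨MB, hMB, hMBr, hrigB, hliftB, hDB⟩ := hrB
  -- injectivity, entrywise
  have hinj' : ∀ x y : Q, pA x = pA y → pB x = pB y → x = y := fun x y h1 h2 =>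
    hinj (Prod.ext h1 h2)
  have hpA : IsLocalHom (pA : Q →+* A) := isLocalHom_of_residue_surjective hA.residue_surjective pA
  have hpB : IsLocalHom (pB : Q →+* B) := isLocalHom_of_residue_surjective hB.residue_surjective pB
  -- the matrix-valued map over `Q`
  let M0 : Gal → Mat2 Q := fun σ => Matrix.of fun i j => r (σ, i, j)
  have hM0A : ∀ σ i j, pA (M0 σ i j) = MA σ i j := fun σ i j => (hMAr σ i j).symm
  have hM0B : ∀ σ i j, pB (M0 σ i j) = MB σ i j := fun σ i j => (hMBr σ i j).symm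
  have hmatinj : ∀ X Y : Mat2 Q, (pA : Q →+* A).mapMatrix X = (pA : Q →+* A).mapMatrix Y →
      (pB : Q →+* B).mapMatrix X = (pB : Q →+* B).mapMatrix Y → X = Y := by
    intro X Y h1 h2
    ext i j
    exact hinj' _ _ (by simpa using congrFun (congrFun h1 i) j)
      (by simpa using congrFun (congrFun h2 i) j)
  have hmapA : ∀ σ, (pA : Q →+* A).mapMatrix (M0 σ) = MA σ := by
    intro σ; ext i j; simpa using hM0A σ i j
  have hmapB : ∀ σ, (pB : Q →+* B).mapMatrix (M0 σ) = MB σ := by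
    intro σ; ext i j; simpa using hM0B σ i j
  let M : Gal →* Mat2 Q :=
    { toFun := M0
      map_one' := by
        apply hmatinj
        · rw [hmapA, map_one, map_one]
        · rw [hmapB, map_one, map_one]
      map_mul' := by
        intro σ τ
        apply hmatinj
        · rw [hmapA, map_mul, map_mul, hmapA, hmapA]
        · rw [hmapB, map_mul, map_mul, hmapB, hmapB] }
  have hMapp : ∀ σ i j, M σ i j = r (σ, i, j) := fun σ i j => rfl
  have hmA : mapMat (pA : Q →+* A) M = MA := MonoidHom.ext fun σ => hmapA σ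
  have hmB : mapMat (pB : Q →+* B) M = MB := MonoidHom.ext fun σ => hmapB σ
  -- continuity
  have hM : IsCtsMat Q M := by
    obtain ⟨LA, hLA, hLA'⟩ := axFibre_exists_level hMA
      (IsArtinianTestAlgebra.exists_pow_maximalIdeal_eq_bot hA)
    obtain ⟨LB, hLB, hLB'⟩ := axFibre_exists_level hMB
      (IsArtinianTestAlgebra.exists_pow_maximalIdeal_eq_bot hB)
    intro n
    have := hLA
    have := hLB
    refine ⟨LA ⊔ LB, inferInstance, fun σ hσ i j => ?_⟩
    have h1 : MA σ = 1 := hLA' σ fun x hx => hσ x ((le_sup_left : LA ≤ LA ⊔ LB) hx)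
    have h2 : MB σ = 1 := hLB' σ fun x hx => hσ x ((le_sup_right : LB ≤ LA ⊔ LB) hx)
    have h3 : M σ = 1 := by
      apply hmatinj
      · rw [map_one]; exact (hmapA σ).trans h1
      · rw [map_one]; exact (hmapB σ).trans h2
    rw [h3, sub_self]
    exact Ideal.zero_mem _
  refine ⟨M, hM, hMapp, ?_, ?_, ?_⟩
  · -- rigidity
    obtain ⟨a1, a2, a3⟩ := hrigA
    obtain ⟨b1, b2, b3⟩ := hrigB
    refine ⟨?_, ?_, ?_⟩
    · apply hinj'
      · rw [map_zero]; exact (hM0A _ _ _).trans a1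
      · rw [map_zero]; exact (hM0B _ _ _).trans b1
    · apply hinj'
      · rw [map_one]; exact (hM0A _ _ _).trans a2
      · rw [map_one]; exact (hM0B _ _ _).trans b2
    · apply hinj'
      · rw [AlgHom.commutes]; exact (hM0A _ _ _).trans a3
      · rw [AlgHom.commutes]; exact (hM0B _ _ _).trans b3
  · -- lift of the residual representation
    intro σ i j a ha
    have h1 := hliftA σ i j a ha
    have h2 : pA (M σ i j - algebraMap 𝒪 Q a) = MA σ i j - algebraMap 𝒪 A a := by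
      rw [map_sub, AlgHom.commutes]; exact congrArg (· - _) (hM0A σ i j)
    rw [← h2] at h1
    rw [mem_maximalIdeal, mem_nonunits_iff] at h1 ⊢
    intro hu
    exact h1 (hu.map pA)
  · -- the deformation condition
    have hctsA : IsCtsMat A (mapMat (pA : Q →+* A) M) := hmA ▸ hMA
    have hctsB : IsCtsMat B (mapMat (pB : Q →+* B) M) := hmB ▸ hMB
    have hDA' : 𝒟 (ofMat (mapMat (pA : Q →+* A) M) hctsA) :=
      axFibre_cast 𝒟 hmA.symm hMA hctsA hDA
    have hDB' : 𝒟 (ofMat (mapMat (pB : Q →+* B) M) hctsB) :=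
      axFibre_cast 𝒟 hmB.symm hMB hctsB hDB
    have eA := ofMat_baseChangeAlong_isEquiv (pA : Q →+* A) hpA M hM hctsA
    have eB := ofMat_baseChangeAlong_isEquiv (pB : Q →+* B) hpB M hM hctsB
    obtain ⟨eA⟩ := eA
    obtain ⟨eB⟩ := eB
    exact h𝒟.of_fibreProduct hA hB hC hQ f g pA pB hpA hpB hcomp hinj hsurj
      (h𝒟.of_isEquiv hA ⟨eA.symm⟩ hDA') (h𝒟.of_isEquiv hB ⟨eB.symm⟩ hDB')

end Fermat.Agent.S53
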