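/-
S53 work package X-a (X1 push, X2 descent).  STATEMENTS ARE FROZEN (squad interface): do not change them.
Proofs completed (helper5336).  Helper lemmas live in THIS file, inside
`namespace Fermat.Agent.S53`, with names prefixed `axPush_` (fresh names).
Uses (statements only): ArtTest*.lean, Dict*.lean.
-/
import Fermat.Agent.S53.Defs
import Fermat.Agent.S53.ArtTest
import Fermat.Agent.S53.Dict
import Fermat.Agent.S53.NormalForm

set_option autoImplicit false

namespace Fermat.Agent.S53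

open IsLocalRing GaloisRep

variable {𝒪 : Type} [CommRing 𝒪] [IsLocalRing 𝒪] {ρbar : ResidualGaloisRep (ResidueField 𝒪)}
  (fr : Frame ρbar)
  (𝒟 : ∀ ⦃A : Type⦄ [CommRing A] [IsLocalRing A] [Algebra 𝒪 A], GaloisRepAdic A → Prop)

/-- A ring homomorphism sends non-units to non-units as soon as it is local; conversely any
ring homomorphism reflects membership of the maximal ideal in the sense below. -/
theorem axPush_mem_maximalIdeal_of_map {A B : Type} [CommRing A] [IsLocalRing A]
    [CommRing B] [IsLocalRing B] (φ : A →+* B) {x : A} (hx : φ x ∈ maximalIdeal B) :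
    x ∈ maximalIdeal A := by
  rw [IsLocalRing.mem_maximalIdeal, mem_nonunits_iff] at hx ⊢
  exact fun h => hx (h.map φ)

theorem axPush_map_mem_maximalIdeal {A B : Type} [CommRing A] [IsLocalRing A]
    [CommRing B] [IsLocalRing B] (φ : A →+* B) (hφ : IsLocalHom φ) {x : A}
    (hx : x ∈ maximalIdeal A) : φ x ∈ maximalIdeal B := by
  rw [IsLocalRing.mem_maximalIdeal, mem_nonunits_iff] at hx ⊢
  exact fun h => hx (hφ.map_nonunit x h)

/-- X1 (push).  Uses `h𝒟.baseChangeAlong`, `h𝒟.of_isEquiv`, D1, D2 and T6/T7. -/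
theorem Frame.liftProblem_push (h𝒟 : GaloisRep.IsDeformationCondition 𝒪 𝒟) :
    ∀ ⦃A B : Type⦄ [CommRing A] [IsLocalRing A] [Algebra 𝒪 A]
      [CommRing B] [IsLocalRing B] [Algebra 𝒪 B],
      IsArtinianTestAlgebra 𝒪 A → IsArtinianTestAlgebra 𝒪 B →
      ∀ (φ : A →ₐ[𝒪] B) ⦃r : Gal × Fin 2 × Fin 2 → A⦄,
        (fr.liftProblem 𝒟).F r → (fr.liftProblem 𝒟).F (fun x => φ (r x)) := by
  intro A B _ _ _ _ _ _ hA hB φ r hr
  obtain ⟨M, hM, hMr, hrig, hlift, hD⟩ := hr
  have hφ : IsLocalHom (φ : A →+* B) := isLocalHom_of_residue_surjective hB.residue_surjective φ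
  have hM' : IsCtsMat B (mapMat (φ : A →+* B) M) := hM.mapMat (φ : A →+* B) hφ
  refine ⟨mapMat (φ : A →+* B) M, hM', ?_, ?_, ?_, ?_⟩
  · intro g i j
    rw [mapMat_apply, hMr]
    rfl
  · obtain ⟨h1, h2, h3⟩ := hrig
    refine ⟨?_, ?_, ?_⟩
    · rw [mapMat_apply, h1, map_zero]
    · rw [mapMat_apply, h2, map_one]
    · rw [mapMat_apply, h3]
      exact φ.commutes fr.c
  · intro g i j a ha
    have h := hlift g i j a ha
    have h2 := axPush_map_mem_maximalIdeal (φ : A →+* B) hφ h
    rw [map_sub] at h2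
    rw [mapMat_apply]
    have h3 : (φ : A →+* B) (algebraMap 𝒪 A a) = algebraMap 𝒪 B a := φ.commutes a
    rw [h3] at h2
    exact h2
  · have h1 := h𝒟.baseChangeAlong hA hB φ hφ hD
    exact h𝒟.of_isEquiv hB (ofMat_baseChangeAlong_isEquiv (φ : A →+* B) hφ M hM hM') h1

/-- X2 (descent).  Uses `h𝒟.of_baseChangeAlong_injective`, `h𝒟.of_isEquiv`, D2; continuity
descends because the maximal ideal of an Artinian test algebra is nilpotent (T7). -/
theorem Frame.liftProblem_descent (h𝒟 : GaloisRep.IsDeformationCondition 𝒪 𝒟) :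
    ∀ ⦃A B : Type⦄ [CommRing A] [IsLocalRing A] [Algebra 𝒪 A]
      [CommRing B] [IsLocalRing B] [Algebra 𝒪 B],
      IsArtinianTestAlgebra 𝒪 A → IsArtinianTestAlgebra 𝒪 B →
      ∀ (φ : A →ₐ[𝒪] B), Function.Injective φ →
        ∀ ⦃r : Gal × Fin 2 × Fin 2 → A⦄,
          (fr.liftProblem 𝒟).F (fun x => φ (r x)) → (fr.liftProblem 𝒟).F r := by
  intro A B _ _ _ _ _ _ hA hB φ hinj r hr
  obtain ⟨MB, hMB, hMBr, hrig, hlift, hD⟩ := hr
  have hφ : IsLocalHom (φ : A →+* B) := isLocalHom_of_residue_surjective hB.residue_surjective φ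
  -- injectivity of the entrywise map
  have hmapinj : Function.Injective ((φ : A →+* B).mapMatrix : Mat2 A → Mat2 B) := by
    intro X Y hXY
    ext i j
    apply hinj
    have := congrFun (congrFun hXY i) j
    simpa [RingHom.mapMatrix_apply, Matrix.map_apply] using this
  -- the matrix function over `A`
  obtain ⟨M, hMapp⟩ : ∃ M : Gal →* Mat2 A, ∀ g i j, M g i j = r (g, i, j) := by
    have hM0 : ∀ g, (φ : A →+* B).mapMatrix (Matrix.of fun i j => r (g, i, j)) = MB g := by
      intro g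
      ext i j
      rw [hMBr g i j]
      rfl
    refine ⟨{ toFun := fun g => Matrix.of fun i j => r (g, i, j)
              map_one' := ?_
              map_mul' := ?_ }, fun g i j => rfl⟩
    · apply hmapinj
      rw [hM0, map_one, map_one]
    · intro g h
      apply hmapinj
      rw [hM0, map_mul, map_mul, hM0, hM0]
  have hM0 : ∀ g, (φ : A →+* B).mapMatrix (M g) = MB g := by
    intro g
    ext i j
    have h1 : MB g i j = φ (r (g, i, j)) := hMBr g i j
    have h2 : (φ : A →+* B).mapMatrix (M g) i j = φ (M g i j) := rfl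
    rw [h2, h1, hMapp]
  have hMB_eq : mapMat (φ : A →+* B) M = MB := by
    apply MonoidHom.ext
    intro g
    exact hM0 g
  -- continuity
  have hM : IsCtsMat A M := by
    intro n
    obtain ⟨N, hN⟩ := IsArtinianTestAlgebra.exists_pow_maximalIdeal_eq_bot hB
    obtain ⟨L, hL, h⟩ := hMB N
    refine ⟨L, hL, fun σ hσ i j => ?_⟩
    have h1 := h σ hσ i j
    rw [hN, Ideal.mem_bot] at h1
    have h2 : (φ : A →+* B) ((M σ - 1) i j) = (MB σ - 1) i j := by
      rw [← hM0 σ]
      have : ((1 : Mat2 B)) = (φ : A →+* B).mapMatrix (1 : Mat2 A) := (map_one _).symm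
      rw [this, ← map_sub]
      rfl
    rw [h1] at h2
    have h3 : (M σ - 1) i j = 0 := by
      apply hinj
      rw [map_zero]
      exact h2
    rw [h3]
    exact Ideal.zero_mem _
  have hMB' : IsCtsMat B (mapMat (φ : A →+* B) M) := hMB_eq ▸ hMB
  have hD' : 𝒟 (ofMat (mapMat (φ : A →+* B) M) hMB') := by
    have key : ∀ (M2 : Gal →* Mat2 B) (h2 : IsCtsMat B M2), M2 = MB → 𝒟 (ofMat M2 h2) := by
      intro M2 h2 h
      subst h
      exact hD
    exact key _ hMB' hMB_eq
  refine ⟨M, hM, hMapp, ?_, ?_, ?_⟩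
  · obtain ⟨h1, h2, h3⟩ := hrig
    refine ⟨?_, ?_, ?_⟩
    · apply hinj
      rw [map_zero, ← h1, ← hM0]
      rfl
    · apply hinj
      rw [map_one, ← h2, ← hM0]
      rfl
    · apply hinj
      rw [φ.commutes, ← h3, ← hM0]
      rfl
  · intro g i j a ha
    have h := hlift g i j a ha
    apply axPush_mem_maximalIdeal_of_map (φ : A →+* B)
    rw [map_sub]
    have h3 : (φ : A →+* B) (algebraMap 𝒪 A a) = algebraMap 𝒪 B a := φ.commutes a
    rw [h3]
    rw [← hM0] at h
    exact h
  · apply h𝒟.of_baseChangeAlong_injective hA hB φ hφ hinj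
    have he := ofMat_baseChangeAlong_isEquiv (φ : A →+* B) hφ M hM hMB'
    obtain ⟨e⟩ := he
    exact h𝒟.of_isEquiv hB ⟨e.symm⟩ hD'

end Fermat.Agent.S53
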