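/-
S53 work package X-d (X6 tangent space).  Statement frozen (squad interface), proved here.
Helper lemmas are prefixed `axTangent_`.
Uses the interface statements T9 (ArtTestA), D5 (DictConj), D7 (DictRes), N1 (RigidUnique).
-/
import Fermat.Agent.S53.Defs
import Fermat.Agent.S53.ArtTest
import Fermat.Agent.S53.Dict
import Fermat.Agent.S53.NormalForm

set_option autoImplicit false
set_option linter.style.haveILetI false
set_option linter.unusedVariables false

namespace Fermat.Agent.S53

open IsLocalRing GaloisRep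

/-- Base change of a residual representation only depends on the ring homomorphism. -/
theorem axTangent_baseChange_congr {k k' : Type} [Field k] [Field k'] (φ ψ : k →+* k')
    (h : φ = ψ) (ρ : ResidualGaloisRep k) :
    @ResidualGaloisRep.baseChange k _ k' _ φ.toAlgebra ρ =
      @ResidualGaloisRep.baseChange k _ k' _ ψ.toAlgebra ρ := by
  subst h; rfl

/-- The two descriptions of the map `k → ResidueField k[ε]` agree. -/
theorem axTangent_map_eq {𝒪 : Type} [CommRing 𝒪] [IsLocalRing 𝒪] :
    letI := dualNumberAlgebra 𝒪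
    ∀ hloc : IsLocalHom (algebraMap 𝒪 (DualNumber (ResidueField 𝒪))),
      ResidueField.map (algebraMap 𝒪 (DualNumber (ResidueField 𝒪))) =
        (IsLocalRing.residue (DualNumber (ResidueField 𝒪))).comp
          (algebraMap (ResidueField 𝒪) (DualNumber (ResidueField 𝒪))) := by
  letI := dualNumberAlgebra 𝒪
  intro hloc
  apply RingHom.ext
  intro x
  obtain ⟨a, rfl⟩ := IsLocalRing.residue_surjective x
  rw [ResidueField.map_residue]
  rfl

variable {𝒪 : Type} [CommRing 𝒪] [IsLocalRing 𝒪] {ρbar : ResidualGaloisRep (ResidueField 𝒪)}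
  (fr : Frame ρbar)
  (𝒟 : ∀ ⦃A : Type⦄ [CommRing A] [IsLocalRing A] [Algebra 𝒪 A], GaloisRepAdic A → Prop)

/-- X6 (tangent space).  Inject `{r // F r}` into the finite quotient of `TangentFinite`:
`r ↦ class of ofMat M_r`; injective by D5 + N1 (`Frame.rigid_unique`) over the dual numbers.
The residual condition in `TangentFinite` is `ρbar.baseChange` along the `letI` algebra
`(residue _).comp (algebraMap k k[ε])`, which equals `ResidueField.map (algebraMap 𝒪 k[ε])`
for `dualNumberAlgebra 𝒪`; then use D7. -/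
theorem Frame.liftProblem_tangent (h𝒟 : GaloisRep.IsDeformationCondition 𝒪 𝒟)
    (hfin : GaloisRep.TangentFinite 𝒪 ρbar 𝒟) :
    letI := dualNumberAlgebra 𝒪
    Finite {r : Gal × Fin 2 × Fin 2 → DualNumber (ResidueField 𝒪) //
      (fr.liftProblem 𝒟).F r} := by
  letI := dualNumberAlgebra 𝒪
  have hata : IsArtinianTestAlgebra 𝒪 (DualNumber (ResidueField 𝒪)) :=
    isArtinianTestAlgebra_dualNumber
  haveI hloc : IsLocalHom (algebraMap 𝒪 (DualNumber (ResidueField 𝒪))) := hata.isLocalHom
  have key : ∀ r : {r : Gal × Fin 2 × Fin 2 → DualNumber (ResidueField 𝒪) //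
      (fr.liftProblem 𝒟).F r},
      ∃ (M : Gal →* Mat2 (DualNumber (ResidueField 𝒪)))
        (hM : IsCtsMat (DualNumber (ResidueField 𝒪)) M),
        (∀ g i j, M g i j = r.1 (g, i, j)) ∧ fr.IsRigid M ∧ fr.IsLiftOf M ∧ 𝒟 (ofMat M hM) :=
    fun r => r.2
  choose M hM hent hrig hl hD using key
  have hres : ∀ r, (ofMat (M r) (hM r)).residual.IsEquiv
      (@ResidualGaloisRep.baseChange (ResidueField 𝒪) _
        (ResidueField (DualNumber (ResidueField 𝒪))) _
        ((IsLocalRing.residue (DualNumber (ResidueField 𝒪))).comp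
          (algebraMap (ResidueField 𝒪) (DualNumber (ResidueField 𝒪)))).toAlgebra ρbar) := by
    intro r
    have h1 := ofMat_residual_isEquiv fr (M r) (hM r) (hl r)
    have h2 := axTangent_baseChange_congr _ _ (axTangent_map_eq (𝒪 := 𝒪) hloc) ρbar
    unfold ResidualGaloisRep.baseChangeAlong at h1
    rw [h2] at h1
    exact h1
  unfold GaloisRep.TangentFinite at hfin
  refine @Finite.of_injective _ _ hfin (fun r => Quotient.mk _ ⟨ofMat (M r) (hM r), hD r, hres r⟩) ?_
  intro r r' hrr'
  have h1 : (ofMat (M r) (hM r)).IsEquiv (ofMat (M r') (hM r')) := Quotient.exact hrr'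
  obtain ⟨P, hP⟩ := exists_conj_of_ofMat_isEquiv (M r) (M r') (hM r) (hM r') h1
  have h2 : M r = M r' := fr.rigid_unique (M r) (M r') (hrig r) (hrig r') (hl r) (hl r') P hP
  apply Subtype.ext
  funext ⟨g, i, j⟩
  rw [← hent r g i j, ← hent r' g i j, h2]

end Fermat.Agent.S53
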