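/-
S53, work package X: the lifting problem of rigid `𝒟`-lifts satisfies the axioms (assembly of
AxPush, AxFibre, AxBase, AxTangent).  No `sorry` here.
-/
import Fermat.Agent.S53.AxPush
import Fermat.Agent.S53.AxFibre
import Fermat.Agent.S53.AxBase
import Fermat.Agent.S53.AxTangent

set_option autoImplicit false

namespace Fermat.Agent.S53

open IsLocalRing GaloisRep

/-- X. The axioms for the lifting problem of rigid lifts satisfying `𝒟`. -/
theorem Frame.liftProblem_axioms {𝒪 : Type} [CommRing 𝒪] [IsLocalRing 𝒪]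
    {ρbar : ResidualGaloisRep (ResidueField 𝒪)} (fr : Frame ρbar)
    (𝒟 : ∀ ⦃A : Type⦄ [CommRing A] [IsLocalRing A] [Algebra 𝒪 A], GaloisRepAdic A → Prop)
    (h𝒟 : GaloisRep.IsDeformationCondition 𝒪 𝒟)
    (hbar : 𝒟 (GaloisRepAdic.ofResidualGaloisRep ρbar))
    (hfin : GaloisRep.TangentFinite 𝒪 ρbar 𝒟) :
    (fr.liftProblem 𝒟).Axioms where
  push := fr.liftProblem_push 𝒟 h𝒟
  descent := fr.liftProblem_descent 𝒟 h𝒟
  fibre := fr.liftProblem_fibre 𝒟 h𝒟
  residue := fr.liftProblem_residue 𝒟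
  base := fr.liftProblem_base 𝒟 h𝒟 hbar
  tangent := fr.liftProblem_tangent 𝒟 h𝒟 hfin

end Fermat.Agent.S53
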