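/-
S53, work package F: existence of a frame (the only use of absolute irreducibility).
STATEMENT IS FROZEN (interface).
-/
import Fermat.Agent.S53.Defs

set_option autoImplicit false

namespace Fermat.Agent.S53

open IsLocalRing GaloisRep
open scoped TensorProduct

/-- Helper: over the algebraic closure, a submodule stable under all `(ρbar.ρ σ).baseChange` is
trivial (a restatement of absolute irreducibility without the structure projections). -/
theorem frameExists_key {k : Type} [Field k] (ρbar : ResidualGaloisRep k)
    (habs : ρbar.IsAbsolutelyIrreducible)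
    (W : Submodule (AlgebraicClosure k) (AlgebraicClosure k ⊗[k] ρbar.V))
    (hW : ∀ σ : Gal, ∀ x ∈ W, (ρbar.ρ σ).baseChange (AlgebraicClosure k) x ∈ W) :
    W = ⊥ ∨ W = ⊤ :=
  habs W hW

/-- Helper: an absolutely irreducible 2-dimensional representation has non-commutative image. -/
theorem frameExists_exists_not_comm {k : Type} [Field k] (ρbar : ResidualGaloisRep k)
    (habs : ρbar.IsAbsolutelyIrreducible) :
    ∃ g0 g1 : Gal, ρbar.ρ g0 * ρbar.ρ g1 ≠ ρbar.ρ g1 * ρbar.ρ g0 := by
  classical
  by_contra hcon
  push Not at hcon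
  have hfr : Module.finrank k ρbar.V = 2 := ρbar.finrank_eq
  have hfrK : Module.finrank (AlgebraicClosure k) (AlgebraicClosure k ⊗[k] ρbar.V) = 2 := by
    rw [Module.finrank_baseChange, hfr]
  by_cases hsc : ∃ (g0 : Gal) (v : ρbar.V), LinearIndependent k ![v, ρbar.ρ g0 v]
  · -- a non-scalar element: use an eigenspace of its base change
    obtain ⟨g0, v, hli⟩ := hsc
    have hcard : Fintype.card (Fin 2) = Module.finrank k ρbar.V := by
      rw [hfr]; rfl
    let b : Module.Basis (Fin 2) k ρbar.V := basisOfLinearIndependentOfCardEqFinrank hli hcard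
    have hb0 : b 0 = v := by
      simp [b, coe_basisOfLinearIndependentOfCardEqFinrank]
    have hb1 : b 1 = ρbar.ρ g0 v := by
      simp [b, coe_basisOfLinearIndependentOfCardEqFinrank]
    let B : Module.Basis (Fin 2) (AlgebraicClosure k) (AlgebraicClosure k ⊗[k] ρbar.V) :=
      Algebra.TensorProduct.basis (AlgebraicClosure k) b
    have hB0 : B 0 = (1 : AlgebraicClosure k) ⊗ₜ[k] v := by
      simp [B, Algebra.TensorProduct.basis_apply, hb0]
    have hB1 : B 1 = (1 : AlgebraicClosure k) ⊗ₜ[k] (ρbar.ρ g0 v) := by
      simp [B, Algebra.TensorProduct.basis_apply, hb1]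
    have : Nontrivial (AlgebraicClosure k ⊗[k] ρbar.V) :=
      Module.nontrivial_of_finrank_pos (R := AlgebraicClosure k) (by rw [hfrK]; norm_num)
    have : FiniteDimensional (AlgebraicClosure k) (AlgebraicClosure k ⊗[k] ρbar.V) :=
      Module.finite_of_finrank_pos (by rw [hfrK]; norm_num)
    obtain ⟨μ, hμ⟩ := Module.End.exists_eigenvalue
      ((ρbar.ρ g0).baseChange (AlgebraicClosure k))
    have hE := frameExists_key ρbar habs
      (Module.End.eigenspace ((ρbar.ρ g0).baseChange (AlgebraicClosure k)) μ) (by
        intro σ x hx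
        rw [Module.End.mem_eigenspace_iff] at hx ⊢
        have h1 : (ρbar.ρ g0).baseChange (AlgebraicClosure k)
            ((ρbar.ρ σ).baseChange (AlgebraicClosure k) x)
            = (ρbar.ρ σ).baseChange (AlgebraicClosure k)
              ((ρbar.ρ g0).baseChange (AlgebraicClosure k) x) := by
          have h2 := congrArg (fun f => LinearMap.baseChange (AlgebraicClosure k) f) (hcon g0 σ)
          simp only [LinearMap.baseChange_mul] at h2
          exact congrArg (fun f => f x) h2
        rw [h1, hx, map_smul])
    rcases hE with hE | hE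
    · exact hμ hE
    · have hmem : B 0 ∈ Module.End.eigenspace
          ((ρbar.ρ g0).baseChange (AlgebraicClosure k)) μ := by
        rw [hE]; exact Submodule.mem_top
      rw [Module.End.mem_eigenspace_iff, hB0, LinearMap.baseChange_tmul, ← hB1, ← hB0] at hmem
      have h3 := congrArg (fun x => B.repr x 1) hmem
      simp at h3
  · -- all elements are scalar: every line is stable
    push Not at hsc
    have hscal : ∀ g : Gal, ∃ a : k, ρbar.ρ g = a • 1 := fun g =>
      LinearMap.exists_eq_smul_id_of_forall_notLinearIndependent (fun v => hsc g v)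
    have : Module.Free k ρbar.V := Module.Free.of_divisionRing k ρbar.V
    let b : Module.Basis (Fin 2) k ρbar.V := Module.finBasisOfFinrankEq k ρbar.V hfr
    let B : Module.Basis (Fin 2) (AlgebraicClosure k) (AlgebraicClosure k ⊗[k] ρbar.V) :=
      Algebra.TensorProduct.basis (AlgebraicClosure k) b
    have hW := frameExists_key ρbar habs (Submodule.span (AlgebraicClosure k) {B 0}) (by
      intro σ x hx
      obtain ⟨a, ha⟩ := hscal σ
      rw [ha, LinearMap.baseChange_smul, LinearMap.baseChange_one]
      simp only [LinearMap.smul_apply, Module.End.one_apply]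
      rw [← algebraMap_smul (AlgebraicClosure k) a x]
      exact Submodule.smul_mem _ _ hx)
    rcases hW with hW | hW
    · have : B 0 ∈ Submodule.span (AlgebraicClosure k) {B 0} :=
        Submodule.subset_span (Set.mem_singleton _)
      rw [hW, Submodule.mem_bot] at this
      exact B.ne_zero 0 this
    · have : B 1 ∈ Submodule.span (AlgebraicClosure k) {B 0} := by
        rw [hW]; exact Submodule.mem_top
      rw [Submodule.mem_span_singleton] at this
      obtain ⟨a, ha⟩ := this
      have h3 := congrArg (fun x => B.repr x 1) ha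
      simp at h3

/-- F1. An absolutely irreducible residual representation admits a frame:
`g0` with `ρbar g0` non-scalar, `v` with `(v, ρbar g0 v)` a basis, `g1` with
`ρbar g1` not commuting with `ρbar g0` (else an eigenspace of `ρbar g0` over the algebraic
closure would be a stable line), an entry `(i0, j0)` where the commutator is nonzero and
`c : 𝒪` lifting the `(i0, j0)` entry of `ρbar g1`. -/
theorem exists_frame {𝒪 : Type} [CommRing 𝒪] [IsLocalRing 𝒪]
    (ρbar : ResidualGaloisRep (ResidueField 𝒪)) (habs : ρbar.IsAbsolutelyIrreducible) :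
    Nonempty (Frame ρbar) := by
  classical
  obtain ⟨g0, g1, hne⟩ := frameExists_exists_not_comm ρbar habs
  have hfr : Module.finrank (ResidueField 𝒪) ρbar.V = 2 := ρbar.finrank_eq
  -- `ρbar g0` is not scalar, hence has a cyclic vector
  have hex : ∃ v : ρbar.V, LinearIndependent (ResidueField 𝒪) ![v, ρbar.ρ g0 v] := by
    by_contra hno
    push Not at hno
    obtain ⟨a, ha⟩ := LinearMap.exists_eq_smul_id_of_forall_notLinearIndependent
      (f := ρbar.ρ g0) hno
    apply hne
    rw [ha]
    ext x
    simp
  obtain ⟨v, hli⟩ := hex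
  have hcard : Fintype.card (Fin 2) = Module.finrank (ResidueField 𝒪) ρbar.V := by
    rw [hfr]; rfl
  let b : Module.Basis (Fin 2) (ResidueField 𝒪) ρbar.V :=
    basisOfLinearIndependentOfCardEqFinrank hli hcard
  have hb0 : b 0 = v := by
    simp [b, coe_basisOfLinearIndependentOfCardEqFinrank]
  have hb1 : b 1 = ρbar.ρ g0 v := by
    simp [b, coe_basisOfLinearIndependentOfCardEqFinrank]
  have hmat : LinearMap.toMatrix b b (ρbar.ρ g0) * LinearMap.toMatrix b b (ρbar.ρ g1) -
      LinearMap.toMatrix b b (ρbar.ρ g1) * LinearMap.toMatrix b b (ρbar.ρ g0) ≠ 0 := by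
    intro h0
    apply hne
    have h1 : LinearMap.toMatrix b b (ρbar.ρ g0 * ρbar.ρ g1) =
        LinearMap.toMatrix b b (ρbar.ρ g1 * ρbar.ρ g0) := by
      rw [LinearMap.toMatrix_mul, LinearMap.toMatrix_mul]
      exact sub_eq_zero.mp h0
    exact (LinearMap.toMatrix b b).injective h1
  have hentry : ∃ i0 j0 : Fin 2,
      (LinearMap.toMatrix b b (ρbar.ρ g0) * LinearMap.toMatrix b b (ρbar.ρ g1) -
        LinearMap.toMatrix b b (ρbar.ρ g1) * LinearMap.toMatrix b b (ρbar.ρ g0)) i0 j0 ≠ 0 := by
    by_contra hno
    push Not at hno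
    exact hmat (Matrix.ext fun i j => by simpa using hno i j)
  obtain ⟨i0, j0, hij⟩ := hentry
  obtain ⟨c, hc⟩ := IsLocalRing.residue_surjective
    (LinearMap.toMatrix b b (ρbar.ρ g1) i0 j0)
  refine ⟨{ b := b, g0 := g0, g1 := g1, i0 := i0, j0 := j0, c := c,
            h00 := ?_, h10 := ?_, hcomm := hij, hc := hc }⟩
  · rw [LinearMap.toMatrix_apply, hb0, ← hb1]
    simp
  · rw [LinearMap.toMatrix_apply, hb0, ← hb1]
    simp

end Fermat.Agent.S53
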